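import Fermat.Agent.H55.Zeta.Interfaces
import Fermat.Agent.H36.ESE.CoeffAut
import Fermat.Agent.H2.KLBRCusp
import Fermat.Agent.H89.ESDA3AlgClosed

/-!
# P-SS / TMB (helper55): the modular instance of the abstract Tate-module bound

`tmb_of_abstract : TMBAbstractStatement → TMBStatement`.

For `k = 𝔽̄_q` (the residue field of a place `A` of `ℚ̄` over `q`) and the function field
`F_k = k(j(q^d) : d ∣ N) ⊆ k((q))` we construct a `FrobStructure k F_k q`:

* `φ` = the coefficientwise Frobenius `∑ a_n q^n ↦ ∑ a_n^q q^n` (helper36's `coeffRingAutC`);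
* finite orbits: the elements of `k((q))` with finite orbit form a subfield containing the
  constants (`k` is algebraic over `𝔽_q`) and the generators `j(q^d)` (integral coefficients);
* the fixed nonconstant function is `j`, the fixed place is the cusp `∞` (the `q`-order,
  helper2's `cuspPlace`).
-/

set_option autoImplicit false
set_option synthInstance.maxHeartbeats 400000
set_option linter.style.haveILetI false

noncomputable section

open AlgebraicCurve ModularCurve

namespace Fermat.Agent.H55.Zeta

section Laurent

/-- A coefficientwise injective ring homomorphism preserves the order of a Laurent series. -/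
theorem order_coeffMap_of_injective {R S : Type*} [CommRing R] [CommRing S] (f : R →+* S)
    (hf : Function.Injective f) (x : LaurentSeries R) : (coeffMap f x).order = x.order := by
  have hzero : coeffMap f x = 0 ↔ x = 0 := by
    constructor
    · intro h
      ext n
      apply hf
      have := congrArg (fun z => HahnSeries.coeff z n) h
      simpa using this
    · rintro rfl
      exact map_zero _
  rcases eq_or_ne x 0 with rfl | hx
  · rw [map_zero, HahnSeries.order_zero, HahnSeries.order_zero]
  have hx' : coeffMap f x ≠ 0 := fun h => hx (hzero.mp h)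
  apply le_antisymm
  · apply HahnSeries.order_le_of_coeff_ne_zero
    rw [coeffMap_coeff]
    intro h
    exact hx (HahnSeries.coeff_order_eq_zero.mp (hf (by rw [h, map_zero])))
  · apply HahnSeries.order_le_of_coeff_ne_zero
    intro h
    apply hx'
    apply HahnSeries.coeff_order_eq_zero.mp
    rw [coeffMap_coeff, h, map_zero]

variable {K : Type*} [Field K]

theorem pow_mul_apply_eq_self (g : K →+* K) {x : K} {r : ℕ} (hx : (g ^ r) x = x) (s : ℕ) :
    (g ^ (r * s)) x = x := by
  rw [pow_mul, RingHom.coe_pow]
  exact Function.iterate_fixed hx s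

/-- The elements with finite orbit under a ring endomorphism of a field form a subfield. -/
def finOrbitSubfield (g : K →+* K) : Subfield K where
  carrier := {x | ∃ r : ℕ, 0 < r ∧ (g ^ r) x = x}
  mul_mem' := by
    rintro x y ⟨r, hr, hx⟩ ⟨s, hs, hy⟩
    refine ⟨r * s, Nat.mul_pos hr hs, ?_⟩
    rw [map_mul, pow_mul_apply_eq_self g hx s, mul_comm r s, pow_mul_apply_eq_self g hy r]
  one_mem' := ⟨1, one_pos, map_one _⟩
  add_mem' := by
    rintro x y ⟨r, hr, hx⟩ ⟨s, hs, hy⟩
    refine ⟨r * s, Nat.mul_pos hr hs, ?_⟩
    rw [map_add, pow_mul_apply_eq_self g hx s, mul_comm r s, pow_mul_apply_eq_self g hy r]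
  zero_mem' := ⟨1, one_pos, map_zero _⟩
  neg_mem' := by
    rintro x ⟨r, hr, hx⟩
    exact ⟨r, hr, by rw [map_neg, hx]⟩
  inv_mem' := by
    rintro x ⟨r, hr, hx⟩
    exact ⟨r, hr, by rw [map_inv₀, hx]⟩

theorem mem_finOrbitSubfield (g : K →+* K) (x : K) :
    x ∈ finOrbitSubfield g ↔ ∃ r : ℕ, 0 < r ∧ (g ^ r) x = x := Iff.rfl

end Laurent

section Generic

variable {k : Type} [Field k] (q : ℕ) [Fact q.Prime] [CharP k q] [PerfectRing k q] (N : ℕ)

/-- the coefficientwise Frobenius on `k((q))` -/
def laurentFrob : LaurentSeries k →+* LaurentSeries k :=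
  coeffMap ((frobeniusEquiv k q : k ≃+* k) : k →+* k)

theorem laurentFrob_pow_algebraMap (c : k) (s : ℕ) :
    ((laurentFrob (k := k) q) ^ s) (algebraMap k (LaurentSeries k) c) =
      algebraMap k (LaurentSeries k) (c ^ (q ^ s)) := by
  induction s with
  | zero => simp
  | succ s ih =>
      rw [pow_succ', RingHom.mul_def, RingHom.comp_apply, ih, laurentFrob, coeffMap_algebraMap]
      congr 1
      show (frobeniusEquiv k q) (c ^ q ^ s) = c ^ q ^ (s + 1)
      rw [frobeniusEquiv_apply, frobenius_def, ← pow_mul, ← pow_succ]

theorem modular_le_finOrbit (halg : ∀ c : k, ∃ s : ℕ, 0 < s ∧ c ^ (q ^ s) = c) :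
    ∀ x : LaurentSeries k, x ∈ modularFunctionFieldFullC k N →
      x ∈ finOrbitSubfield (laurentFrob (k := k) q) := by
  intro x hx
  rw [Fermat.Agent.H36.mem_modularFunctionFieldFullC_iff] at hx
  refine (Subfield.closure_le (t := finOrbitSubfield (laurentFrob (k := k) q))).mpr ?_ hx
  rintro y (⟨c, rfl⟩ | hy)
  · obtain ⟨s, hs, hc⟩ := halg c
    exact ⟨s, hs, by rw [laurentFrob_pow_algebraMap, hc]⟩
  · refine ⟨1, one_pos, ?_⟩
    rw [pow_one]
    exact Fermat.Agent.H36.coeffMap_mem_divisorExpansionsC N _ hy

/-- the Frobenius of the modular function field in characteristic `q` -/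
def modularFrob : ↥(modularFunctionFieldFullC k N) ≃+* ↥(modularFunctionFieldFullC k N) :=
  Fermat.Agent.H36.coeffRingAutC N (frobeniusEquiv k q)

theorem coe_modularFrob (f : ↥(modularFunctionFieldFullC k N)) :
    ((modularFrob q N f : ↥(modularFunctionFieldFullC k N)) : LaurentSeries k) =
      laurentFrob (k := k) q (f : LaurentSeries k) := rfl

theorem coe_modularFrob_iterate (f : ↥(modularFunctionFieldFullC k N)) (r : ℕ) :
    (((⇑(modularFrob q N))^[r] f : ↥(modularFunctionFieldFullC k N)) : LaurentSeries k) =
      ((laurentFrob (k := k) q) ^ r) (f : LaurentSeries k) := by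
  induction r with
  | zero => simp
  | succ r ih =>
      rw [Function.iterate_succ_apply', coe_modularFrob, ih, pow_succ', RingHom.mul_def,
        RingHom.comp_apply]

/-- the inclusion of the modular function field into `k((q))` -/
def modularIncl : ↥(modularFunctionFieldFullC k N) →+* LaurentSeries k :=
  (modularFunctionFieldFullC k N).val.toRingHom

theorem modularIncl_apply (f : ↥(modularFunctionFieldFullC k N)) :
    modularIncl N f = (f : LaurentSeries k) := rfl

theorem modularIncl_const (a : k) (ha : a ≠ 0) :
    (modularIncl N (algebraMap k ↥(modularFunctionFieldFullC k N) a)).order = 0 := by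
  show (algebraMap k (LaurentSeries k) a).order = 0
  rw [algebraMap_laurentSeries_eq_single]
  exact HahnSeries.order_single ha

/-- `j`, as an element of the modular function field -/
def modularJ : ↥(modularFunctionFieldFullC k N) := ⟨jqModC k, jqModC_mem_full k N⟩

theorem modularIncl_J : (modularIncl N (modularJ (k := k) N)).order = -1 :=
  P2MW.S_ModularCurve_coeff_jqModC_neg_one.ModularCurve.CharLRows.order_jqModC k

/-- **The Frobenius structure of the modular function field in characteristic `q`.** -/
def modularFrobStructure (halg : ∀ c : k, ∃ s : ℕ, 0 < s ∧ c ^ (q ^ s) = c) :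
    FrobStructure k ↥(modularFunctionFieldFullC k N) q where
  φ := modularFrob q N
  map_algebraMap c := by
    rw [modularFrob, Fermat.Agent.H36.coeffRingAutC_algebraMap, frobeniusEquiv_apply,
      frobenius_def]
  finite_orbit f := by
    obtain ⟨r, hr, h⟩ := modular_le_finOrbit q N halg (f : LaurentSeries k) f.2
    exact ⟨r, hr, Subtype.ext (by rw [coe_modularFrob_iterate, h])⟩
  x := modularJ N
  x_fixed := Subtype.ext (coeffMap_jqModC _)
  x_nonconst c h := by
    have h1 := modularIncl_J (k := k) N
    rw [h] at h1
    by_cases hc : c = 0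
    · rw [hc, map_zero, map_zero, HahnSeries.order_zero] at h1
      omega
    · rw [modularIncl_const N c hc] at h1
      omega
  v₀ := Fermat.Agent.H2.cuspPlace (modularIncl N) (modularIncl_const N) (modularJ N)
    (modularIncl_J N)
  v₀_fixed f := by
    show f ∈ Fermat.Agent.H2.cuspValuationSubring (modularIncl N) ↔
      modularFrob q N f ∈ Fermat.Agent.H2.cuspValuationSubring (modularIncl N)
    rw [Fermat.Agent.H2.mem_cuspValuationSubring, Fermat.Agent.H2.mem_cuspValuationSubring,
      modularIncl_apply, modularIncl_apply, coe_modularFrob, laurentFrob,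
      order_coeffMap_of_injective ((frobeniusEquiv k q : k ≃+* k) : k →+* k)
        (frobeniusEquiv k q).injective,
      EmbeddingLike.map_eq_zero_iff]

end Generic

section Residue

open Polynomial

/-- The residue field of a place of `ℚ̄` over `q` is algebraic over `𝔽_q`: every element has a
finite orbit under Frobenius. -/
theorem residueField_frob_orbit (A : ValuationSubring (AlgebraicClosure ℚ)) (q : ℕ)
    [Fact q.Prime] (hA : A.LiesOverPrime q) (c : IsLocalRing.ResidueField A) :
    ∃ s : ℕ, 0 < s ∧ c ^ (q ^ s) = c := by
  haveI : CharP (IsLocalRing.ResidueField A) q :=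
    Fermat.Agent.H89.charP_residueField_of_liesOverPrime A q hA
  obtain ⟨a, rfl⟩ := IsLocalRing.residue_surjective c
  -- an integral primitive polynomial killing `a`
  have h1 : IsAlgebraic ℤ (a : AlgebraicClosure ℚ) :=
    (IsFractionRing.isAlgebraic_iff ℤ ℚ (AlgebraicClosure ℚ)).mpr
      ((AlgebraicClosure.isAlgebraic ℚ).isAlgebraic _)
  obtain ⟨P, hP0, hPa⟩ := h1
  have hP' : aeval (a : AlgebraicClosure ℚ) P.primPart = 0 :=
    Polynomial.aeval_primPart_eq_zero hP0 hPa
  have hprim := Polynomial.isPrimitive_primPart P
  set P' := P.primPart with hP'def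
  -- `P'(a) = 0` in `A`
  have hA0 : eval₂ (Int.castRingHom A) a P' = 0 := by
    apply Subtype.val_injective
    have := Polynomial.hom_eval₂ P' (Int.castRingHom A) (A.subtype) a
    rw [show (A.subtype : A →+* AlgebraicClosure ℚ).comp (Int.castRingHom A) =
      algebraMap ℤ (AlgebraicClosure ℚ) from RingHom.ext_int _ _] at this
    show A.subtype (eval₂ (Int.castRingHom A) a P') = 0
    rw [this]
    exact hP'
  -- hence `P'(c) = 0` in the residue field
  have hk0 : eval₂ (Int.castRingHom (IsLocalRing.ResidueField A)) (IsLocalRing.residue A a) P'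
      = 0 := by
    have := Polynomial.hom_eval₂ P' (Int.castRingHom A) (IsLocalRing.residue A) a
    rw [hA0, map_zero,
      show (IsLocalRing.residue A).comp (Int.castRingHom A) =
        Int.castRingHom (IsLocalRing.ResidueField A) from RingHom.ext_int _ _] at this
    exact this.symm
  -- `P'` is nonzero modulo `q`
  have hne : P'.map (Int.castRingHom (ZMod q)) ≠ 0 := by
    intro h0
    have hdvd : C (q : ℤ) ∣ P' := by
      rw [Polynomial.C_dvd_iff_dvd_coeff]
      intro i
      have := congrArg (fun R => R.coeff i) h0
      simp only [coeff_map, coeff_zero, eq_intCast] at this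
      exact (ZMod.intCast_zmod_eq_zero_iff_dvd _ _).mp this
    have hu := hprim _ hdvd
    rw [Int.isUnit_iff] at hu
    have hq : (2 : ℤ) ≤ q := by exact_mod_cast (Fact.out : q.Prime).two_le
    omega
  letI : Algebra (ZMod q) (IsLocalRing.ResidueField A) :=
    ZMod.algebra (IsLocalRing.ResidueField A) q
  have halgc : IsAlgebraic (ZMod q) (IsLocalRing.residue A a) := by
    refine ⟨P'.map (Int.castRingHom (ZMod q)), hne, ?_⟩
    rw [aeval_def, eval₂_map,
      show (algebraMap (ZMod q) (IsLocalRing.ResidueField A)).comp (Int.castRingHom (ZMod q)) =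
        Int.castRingHom (IsLocalRing.ResidueField A) from RingHom.ext_int _ _]
    exact hk0
  have hint : IsIntegral (ZMod q) (IsLocalRing.residue A a) := halgc.isIntegral
  haveI : FiniteDimensional (ZMod q) ↥(IntermediateField.adjoin (ZMod q)
      {IsLocalRing.residue A a}) :=
    IntermediateField.adjoin.finiteDimensional hint
  haveI : Finite ↥(IntermediateField.adjoin (ZMod q) {IsLocalRing.residue A a}) :=
    Module.finite_of_finite (ZMod q)
  letI := Fintype.ofFinite ↥(IntermediateField.adjoin (ZMod q) {IsLocalRing.residue A a})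
  haveI : CharP ↥(IntermediateField.adjoin (ZMod q) {IsLocalRing.residue A a}) q :=
    charP_of_injective_algebraMap
      (algebraMap (ZMod q) ↥(IntermediateField.adjoin (ZMod q) {IsLocalRing.residue A a})).injective
      q
  obtain ⟨n, -, hcard⟩ :=
    FiniteField.card ↥(IntermediateField.adjoin (ZMod q) {IsLocalRing.residue A a}) q
  have hpow := FiniteField.pow_card
    (⟨IsLocalRing.residue A a, IntermediateField.mem_adjoin_simple_self _ _⟩ :
      ↥(IntermediateField.adjoin (ZMod q) {IsLocalRing.residue A a}))
  rw [hcard] at hpow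
  refine ⟨n, n.pos, ?_⟩
  have := congrArg Subtype.val hpow
  simpa using this

end Residue

/-- **The modular instance**: the abstract Tate-module bound implies the Tate-module bound for
the function fields of `X₀(N)` in characteristic `q`. -/
theorem tmb_of_abstract (h : TMBAbstractStatement) : TMBStatement := by
  intro N _ q _ A hA hRR p _
  haveI : IsAlgClosed (IsLocalRing.ResidueField A) :=
    Fermat.Agent.H89.isAlgClosed_residueField A
  haveI : CharP (IsLocalRing.ResidueField A) q :=
    Fermat.Agent.H89.charP_residueField_of_liesOverPrime A q hA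
  exact h (IsLocalRing.ResidueField A)
    ↥(modularFunctionFieldFullC (IsLocalRing.ResidueField A) N) q
    (residueField_frob_orbit A q hA)
    (modularFrobStructure q N (residueField_frob_orbit A q hA)) hRR p

end Fermat.Agent.H55.Zeta
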