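import Fermat.Agent.H58.RR.NonSpecial
import Fermat.Prelude.Def_ModularCurve_X0ModL
import Fermat.Prelude.Def_FLTPrelim_Ramification

/-!
# P-SS / TMB (helper55): the characteristic-`q` Tate-module bound — interfaces

**Goal (`TMBStatement`).**  For the function field `F_k = modularFunctionFieldFullC k N` of
`X₀(N)` over `k = 𝔽̄_q` (residue field of a place of `ℚ̄` over `q`), with `RRHyp k F_k`:
for every prime `p` there is `C` with `#Pic⁰(F_k)[p^n] ≤ C · p^(2 g n)` for all `n`,
`g = genusFF k F_k`.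

With the injectivity of reduction on torsion (KL / S18) and `#J₀(N)[p^n] ≥ p^(2 g n)` this
says that the reduction map `J₀(N)[p^n] → Pic⁰(F_k)[p^n]` has bounded cokernel, i.e. the
`p`-adic Tate module of the special fibre carries *only* eigensystems of level `N`.  This is
what excludes the case "the `q`-new eigenform hides in the abelian part" in S35 (P-SS, (F2) of
findings #334).

**Route: Weil zeta function, in terms of `(F_k, φ)` only** (`φ` = coefficientwise Frobenius).
Already proved (Mathlib only, `Fermat.Agent.H55.Zeta.ZetaBound`, `...GroupLemma`):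

* `zeta_padicValNat_bound`: sequences `a r n`, `N s`, `h r` with (A0) `a r 0 = 1`,
  (A1) `(n+1) a_r(n+1) = ∑_{i+j=n} a_r(i) N(r(j+1))`, (A2) `a_r(n) (Q-1) = h_r (Q^(n+1-g) - 1)`
  for `n ≥ 2g-1` (`Q = q^r`), `h r ≠ 0`  ⟹  `v_p(h r) ≤ C + 2 g v_p(r)`.
* `card_torsion_le_of_fixed_le`: group lemma, `#(G[p^∞])^(φ^r) ≤ p^(C + n v_p(r))` for all `r`
  and finite orbits on `G[p]`  ⟹  `#G[p^m] ≤ p^(C' + n m)`.

Open rows (statements below):

* `EulerRecurrenceStatement` (Mathlib only): the recurrence (A1) for the invariant effective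
  divisors of a permutation with finitely many fixed points of each power.
* `FrobDescentStatement` (Mathlib only): a `q^e`-semilinear map with finite orbits on a
  finite-dimensional space `V` over an algebraically closed field has exactly `(q^e)^(dim V)`
  fixed vectors.
* `NonSpecialStatement` (on helper58's adelic Riemann theorem): `ℓ(D) = deg D + 1 - g` as soon
  as `deg D ≥ 2g - 1`.
-/

set_option autoImplicit false
set_option synthInstance.maxHeartbeats 400000

open AlgebraicCurve

namespace Fermat.Agent.H55.Zeta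

/-- `σ`-invariant effective divisors of degree `n` on a set `X` (finitely supported functions
`X → ℤ`, nonnegative, constant on the orbits of `σ`, of total mass `n`). -/
def invEff {X : Type*} (σ : Equiv.Perm X) (n : ℕ) : Set (X →₀ ℤ) :=
  {D | 0 ≤ D ∧ (∀ x, D (σ x) = D x) ∧ (D.sum fun _ m => m) = (n : ℤ)}

/-- **Row SS-TMB-EULER (Mathlib only).**  Logarithmic derivative of the Euler product:
`(n+1) a(n+1) = ∑_{i+j=n} a(i) N(j+1)`, `a(n) = #invEff σ n`, `N(s) = #Fix(σ^s)`.

Proof: count triples `(D, x, m)` with `D ∈ invEff σ (n+1)`, `1 ≤ m ≤ D x`: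
on the one hand `∑_D ∑_x D x = (n+1) a(n+1)`; on the other hand `(D, x, m) ↦ (x, m, D - m O_x)`
(`O_x` = indicator of the orbit of `x`, of size `d_x`) is a bijection onto the triples with
`D' ∈ invEff σ (n+1 - m d_x)`, and `#{(x, m) : m d_x = s} = #{x : d_x ∣ s} = N(s)`. -/
def EulerRecurrenceStatement : Prop :=
  ∀ (X : Type) (σ : Equiv.Perm X), (∀ s : ℕ, 0 < s → {x : X | (σ ^ s) x = x}.Finite) →
    (∀ n : ℕ, (invEff σ n).Finite) ∧
    ∀ n : ℕ, (n + 1) * (invEff σ (n + 1)).ncard =
      ∑ ij ∈ Finset.HasAntidiagonal.antidiagonal n,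
        (invEff σ ij.1).ncard * {x : X | (σ ^ (ij.2 + 1)) x = x}.ncard

/-- **Row SS-TMB-DESCENT (Mathlib only).**  Frobenius descent (Lang / Hilbert 90 for `GL_n`
in the easy case of finite orbits): a `q^e`-semilinear additive map `Ψ` with finite orbits on a
finite-dimensional vector space over an algebraically closed field of characteristic `q` has
exactly `(q^e)^(dim V)` fixed vectors.

Proof: (1) fixed vectors that are linearly independent over `𝔽_Q = {c : c^Q = c}` are linearly
independent over `k` (apply `Ψ` to a shortest relation); (2) the fixed vectors span `V`: if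
`Ψ^s v = v` and `ζ` is a primitive `(Q^s - 1)`-th root of unity, then
`T_n := ∑_{j<s} Ψ^j (ζ^n v) = ∑_j (ζ^(Q^j))^n Ψ^j v` is fixed for every `n`, and the
Vandermonde matrix of the distinct nodes `ζ^(Q^j)`, `j < s`, is invertible; (3) `𝔽_Q` has
exactly `Q` elements. -/
def FrobDescentStatement : Prop :=
  ∀ (k V : Type) [Field k] [IsAlgClosed k] [AddCommGroup V] [Module k V]
    [FiniteDimensional k V] (q : ℕ) [Fact q.Prime] [CharP k q] (e : ℕ), 0 < e →
    ∀ Ψ : V →+ V, (∀ (c : k) (v : V), Ψ (c • v) = c ^ (q ^ e) • Ψ v) →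
      (∀ v : V, ∃ s : ℕ, 0 < s ∧ Ψ^[s] v = v) →
      {v : V | Ψ v = v}.Finite ∧ {v : V | Ψ v = v}.ncard = (q ^ e) ^ Module.finrank k V

/-- **Row SS-TMB-NONSPECIAL.**  Sharp threshold in Riemann's theorem (no canonical divisor
needed): if `dim H¹(D) > 0`, pick a nonzero functional `ω` on `H¹(D)`; for a place `v₀` and
`B := D + [v₀]`, `x ↦ (α ↦ ω (x α))` is an injective `K`-linear map
`L(B) → (H¹(D - B))^*`, so `deg B + 1 - g ≤ ℓ(B) ≤ dim H¹(D - B) = deg B - deg D - 1 + g`
(Riemann's theorem and `L(D - B) = 0`), i.e. `deg D ≤ 2g - 2`. -/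
def NonSpecialStatement : Prop :=
  ∀ (K F : Type) [Field K] [Field F] [Algebra K F], Fermat.Agent.H58.RRHyp K F →
    ∀ D : Divisor K F, 2 * (genusFF K F : ℤ) - 1 ≤ Divisor.degree D →
      (Module.finrank K (riemannRochSpace D) : ℤ) = Divisor.degree D + 1 - (genusFF K F : ℤ)

/-- A **Frobenius structure** on a function field `F / k`, `char k = q`: a ring automorphism
`φ` of `F` inducing `c ↦ c^q` on `k`, with finite orbits, together with a `φ`-fixed
nonconstant function and a `φ`-stable place. -/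
structure FrobStructure (k F : Type*) [Field k] [Field F] [Algebra k F] (q : ℕ) where
  /-- the Frobenius -/
  φ : F ≃+* F
  map_algebraMap : ∀ c : k, φ (algebraMap k F c) = algebraMap k F (c ^ q)
  finite_orbit : ∀ f : F, ∃ r : ℕ, 0 < r ∧ (⇑φ)^[r] f = f
  /-- a fixed nonconstant function -/
  x : F
  x_fixed : φ x = x
  x_nonconst : ∀ c : k, x ≠ algebraMap k F c
  /-- a fixed place -/
  v₀ : Place k F
  v₀_fixed : ∀ f : F, f ∈ v₀.toValuationSubring ↔ φ f ∈ v₀.toValuationSubring

/-- **TMB, abstract form.** -/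
def TMBAbstractStatement : Prop :=
  ∀ (k F : Type) [Field k] [Field F] [Algebra k F] [IsAlgClosed k] (q : ℕ) [Fact q.Prime]
    [CharP k q], (∀ c : k, ∃ s : ℕ, 0 < s ∧ c ^ (q ^ s) = c) →
    FrobStructure k F q → Fermat.Agent.H58.RRHyp k F →
    ∀ (p : ℕ) [Fact p.Prime], ∃ C : ℕ, ∀ n : ℕ,
      Finite (Pic0.torsion k F (p ^ n)) ∧
        Nat.card (Pic0.torsion k F (p ^ n)) ≤ C * p ^ (2 * genusFF k F * n)

/-- **TMB for the modular function fields in characteristic `q`.** -/
def TMBStatement : Prop :=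
  ∀ (N : ℕ) [NeZero N] (q : ℕ) [Fact q.Prime]
    (A : ValuationSubring (AlgebraicClosure ℚ)), A.LiesOverPrime q →
    Fermat.Agent.H58.RRHyp (IsLocalRing.ResidueField A)
      ↥(ModularCurve.modularFunctionFieldFullC (IsLocalRing.ResidueField A) N) →
    ∀ (p : ℕ) [Fact p.Prime], ∃ C : ℕ, ∀ n : ℕ,
      Finite (Pic0.torsion (IsLocalRing.ResidueField A)
        ↥(ModularCurve.modularFunctionFieldFullC (IsLocalRing.ResidueField A) N) (p ^ n)) ∧
      Nat.card (Pic0.torsion (IsLocalRing.ResidueField A)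
        ↥(ModularCurve.modularFunctionFieldFullC (IsLocalRing.ResidueField A) N) (p ^ n)) ≤
        C * p ^ (2 * genusFF (IsLocalRing.ResidueField A)
          ↥(ModularCurve.modularFunctionFieldFullC (IsLocalRing.ResidueField A) N) * n)

end Fermat.Agent.H55.Zeta
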