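import Fermat.Agent.H55.Zeta.Interfaces

set_option autoImplicit false

noncomputable section

open AlgebraicCurve

namespace Fermat.Agent.H55.Zeta

theorem ringAut_inv_apply_self {R : Type*} [Ring R] (σ : RingAut R) (x : R) : σ⁻¹ (σ x) = x := by
  rw [RingAut.inv_apply, RingEquiv.symm_apply_apply]

theorem ringAut_apply_inv_self {R : Type*} [Ring R] (σ : RingAut R) (x : R) : σ (σ⁻¹ x) = x := by
  rw [RingAut.inv_apply, RingEquiv.apply_symm_apply]

variable (k F : Type*) [Field k] [Field F] [Algebra k F]

/-- Ring automorphisms of `F` preserving (the image of) `k`. -/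
def baseAut : Subgroup (RingAut F) where
  carrier := {σ | ∀ c : k, (∃ c' : k, σ (algebraMap k F c) = algebraMap k F c') ∧
    (∃ c' : k, σ⁻¹ (algebraMap k F c) = algebraMap k F c')}
  one_mem' := fun c => ⟨⟨c, rfl⟩, ⟨c, rfl⟩⟩
  mul_mem' := by
    intro σ τ hσ hτ c
    constructor
    · obtain ⟨c₁, h₁⟩ := (hτ c).1
      obtain ⟨c₂, h₂⟩ := (hσ c₁).1
      exact ⟨c₂, by rw [RingAut.mul_apply, h₁, h₂]⟩
    · obtain ⟨c₁, h₁⟩ := (hσ c).2
      obtain ⟨c₂, h₂⟩ := (hτ c₁).2
      exact ⟨c₂, by rw [mul_inv_rev, RingAut.mul_apply, h₁, h₂]⟩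
  inv_mem' := by
    intro σ hσ c
    exact ⟨(hσ c).2, by rw [inv_inv]; exact (hσ c).1⟩

variable {k F}

theorem baseAut_apply_algebraMap (σ : baseAut k F) (c : k) :
    ∃ c' : k, (σ : RingAut F) (algebraMap k F c) = algebraMap k F c' := (σ.2 c).1

theorem baseAut_inv_apply_algebraMap (σ : baseAut k F) (c : k) :
    ∃ c' : k, (σ : RingAut F)⁻¹ (algebraMap k F c) = algebraMap k F c' := (σ.2 c).2

/-- The image of a place under an automorphism preserving `k`. -/
def placeSMul (σ : baseAut k F) (v : Place k F) : Place k F where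
  toValuationSubring := v.toValuationSubring.comap ((σ : RingAut F)⁻¹ : F ≃+* F).toRingHom
  algebraMap_mem' := fun a => by
    obtain ⟨c', hc'⟩ := baseAut_inv_apply_algebraMap σ a
    rw [ValuationSubring.mem_comap]
    show (σ : RingAut F)⁻¹ (algebraMap k F a) ∈ _
    rw [hc']
    exact v.algebraMap_mem' c'
  ne_top' := by
    intro h
    apply v.ne_top'
    refine SetLike.ext fun x => ⟨fun _ => ValuationSubring.mem_top x, fun _ => ?_⟩
    have : (σ : RingAut F) x ∈ v.toValuationSubring.comap ((σ : RingAut F)⁻¹ : F ≃+* F).toRingHom := by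
      rw [h]; exact ValuationSubring.mem_top _
    rw [ValuationSubring.mem_comap] at this
    have h2 : (σ : RingAut F)⁻¹ ((σ : RingAut F) x) ∈ v.toValuationSubring := this
    rwa [ringAut_inv_apply_self] at h2
  isPrincipalIdealRing' := by
    let f : v.toValuationSubring →+* (v.toValuationSubring.comap
        ((σ : RingAut F)⁻¹ : F ≃+* F).toRingHom) :=
      { toFun := fun x => ⟨(σ : RingAut F) x.1, by
          rw [ValuationSubring.mem_comap]
          show (σ : RingAut F)⁻¹ ((σ : RingAut F) x.1) ∈ _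
          rw [ringAut_inv_apply_self]
          exact x.2⟩
        map_one' := Subtype.ext (map_one _)
        map_mul' := fun _ _ => Subtype.ext (map_mul _ _ _)
        map_zero' := Subtype.ext (map_zero _)
        map_add' := fun _ _ => Subtype.ext (map_add _ _ _) }
    have hf : Function.Surjective f := by
      rintro ⟨y, hy⟩
      rw [ValuationSubring.mem_comap] at hy
      exact ⟨⟨_, hy⟩, Subtype.ext (by
        show (σ : RingAut F) ((σ : RingAut F)⁻¹ y) = y
        rw [ringAut_apply_inv_self])⟩
    exact IsPrincipalIdealRing.of_surjective f hf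

theorem mem_placeSMul {σ : baseAut k F} {v : Place k F} {x : F} :
    x ∈ (placeSMul σ v).toValuationSubring ↔ (σ : RingAut F)⁻¹ x ∈ v.toValuationSubring :=
  Iff.rfl

theorem apply_mem_placeSMul {σ : baseAut k F} {v : Place k F} {x : F} :
    (σ : RingAut F) x ∈ (placeSMul σ v).toValuationSubring ↔ x ∈ v.toValuationSubring := by
  rw [mem_placeSMul, ringAut_inv_apply_self]

instance : MulAction (baseAut k F) (Place k F) where
  smul := placeSMul
  one_smul := fun v => by
    apply Place.ext
    ext x
    show x ∈ (placeSMul 1 v).toValuationSubring ↔ _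
    rw [mem_placeSMul]
    simp
  mul_smul := fun σ τ v => by
    apply Place.ext
    ext x
    show x ∈ (placeSMul (σ * τ) v).toValuationSubring ↔
      x ∈ (placeSMul σ (placeSMul τ v)).toValuationSubring
    rw [mem_placeSMul, mem_placeSMul, mem_placeSMul]
    simp [mul_inv_rev, RingAut.mul_apply]

theorem mem_smul_place {σ : baseAut k F} {v : Place k F} {x : F} :
    x ∈ (σ • v).toValuationSubring ↔ (σ : RingAut F)⁻¹ x ∈ v.toValuationSubring :=
  Iff.rfl

theorem apply_mem_smul_place {σ : baseAut k F} {v : Place k F} {x : F} :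
    (σ : RingAut F) x ∈ (σ • v).toValuationSubring ↔ x ∈ v.toValuationSubring :=
  apply_mem_placeSMul


/-- The ring isomorphism `O_v ≃ O_{σ v}` induced by `σ`. -/
def placeRingEquiv (σ : baseAut k F) (v : Place k F) :
    v.toValuationSubring ≃+* (σ • v).toValuationSubring where
  toFun := fun x => ⟨(σ : RingAut F) x.1, apply_mem_smul_place.mpr x.2⟩
  invFun := fun y => ⟨(σ : RingAut F)⁻¹ y.1, mem_smul_place.mp y.2⟩
  left_inv := fun _ => Subtype.ext (ringAut_inv_apply_self _ _)
  right_inv := fun _ => Subtype.ext (ringAut_apply_inv_self _ _)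
  map_mul' := fun _ _ => Subtype.ext (map_mul _ _ _)
  map_add' := fun _ _ => Subtype.ext (map_add _ _ _)

@[simp] theorem coe_placeRingEquiv (σ : baseAut k F) (v : Place k F) (x : v.toValuationSubring) :
    ((placeRingEquiv σ v x : (σ • v).toValuationSubring) : F) = (σ : RingAut F) x.1 := rfl

/-- `ord_{σ v} (σ f) = ord_v f`. -/
theorem ord_smul_apply (σ : baseAut k F) (v : Place k F) (f : F) :
    (σ • v).ord ((σ : RingAut F) f) = v.ord f := by
  rcases eq_or_ne f 0 with rfl | hf
  · simp
  obtain ⟨π, hπ⟩ := IsDiscreteValuationRing.exists_irreducible v.toValuationSubring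
  obtain ⟨u, hu⟩ := v.exists_unit_mul_zpow hf hπ
  have hπ' : Irreducible (placeRingEquiv σ v π) :=
    (MulEquiv.irreducible_iff (placeRingEquiv σ v).toMulEquiv).mpr hπ
  have h1 := (σ • v).ord_unit_smul_zpow (Units.map (placeRingEquiv σ v).toMonoidHom u) hπ'
    (v.ord f)
  have h2 : (σ : RingAut F) f =
      (((Units.map (placeRingEquiv σ v).toMonoidHom u : (σ • v).toValuationSubringˣ) :
        (σ • v).toValuationSubring) : F) * ((placeRingEquiv σ v π : F) ^ (v.ord f)) := by
    conv_lhs => rw [hu]
    rw [map_mul, map_zpow₀]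
    rfl
  rw [h2]
  exact h1

theorem ord_smul (σ : baseAut k F) (v : Place k F) (f : F) :
    (σ • v).ord f = v.ord ((σ : RingAut F)⁻¹ f) := by
  conv_lhs => rw [← ringAut_apply_inv_self (σ : RingAut F) f]
  exact ord_smul_apply σ v _


/-! ### Action on divisors -/

/-- The action of `σ` on divisors: `(σ D)(σ v) = D v`. -/
def divAct (σ : baseAut k F) : Divisor k F ≃+ Divisor k F :=
  Finsupp.domCongr (MulAction.toPerm σ)

theorem divAct_apply (σ : baseAut k F) (D : Divisor k F) (v : Place k F) :
    divAct σ D v = D (σ⁻¹ • v) := by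
  rw [divAct, Finsupp.domCongr_apply, Finsupp.equivMapDomain_apply]
  rfl

theorem divAct_apply_smul (σ : baseAut k F) (D : Divisor k F) (v : Place k F) :
    divAct σ D (σ • v) = D v := by
  rw [divAct_apply, inv_smul_smul]

theorem divAct_one (D : Divisor k F) : divAct (1 : baseAut k F) D = D := by
  ext v
  rw [divAct_apply, inv_one, one_smul]

theorem divAct_mul (σ τ : baseAut k F) (D : Divisor k F) :
    divAct (σ * τ) D = divAct σ (divAct τ D) := by
  ext v
  rw [divAct_apply, divAct_apply, divAct_apply, mul_inv_rev, mul_smul]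

theorem divAct_pow (σ : baseAut k F) (r : ℕ) (D : Divisor k F) :
    divAct (σ ^ r) D = (divAct σ)^[r] D := by
  induction r with
  | zero => simp [divAct_one]
  | succ r ih => rw [pow_succ', divAct_mul, ih, Function.iterate_succ_apply']

theorem divAct_eq_self_iff (σ : baseAut k F) (D : Divisor k F) :
    divAct σ D = D ↔ ∀ v : Place k F, D (σ • v) = D v := by
  constructor
  · intro h v
    conv_lhs => rw [← h]
    exact divAct_apply_smul σ D v
  · intro h
    ext v
    rw [divAct_apply, ← h (σ⁻¹ • v), smul_inv_smul]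

theorem divAct_single (σ : baseAut k F) (v : Place k F) (n : ℤ) :
    divAct σ (Finsupp.single v n) = Finsupp.single (σ • v) n := by
  rw [divAct, Finsupp.domCongr_apply, Finsupp.equivMapDomain_single]
  rfl

theorem divAct_nonneg (σ : baseAut k F) {D : Divisor k F} (hD : 0 ≤ D) : 0 ≤ divAct σ D := by
  rw [Finsupp.le_def] at hD ⊢
  intro v
  rw [divAct_apply]
  exact hD _

theorem degree_divAct (hdeg : ∀ v : Place k F, v.deg = 1) (σ : baseAut k F) (D : Divisor k F) :
    Divisor.degree (divAct σ D) = Divisor.degree D := by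
  induction D using Finsupp.induction_linear with
  | zero => simp
  | add D E hD hE => rw [map_add, map_add, map_add, hD, hE]
  | single v n => rw [divAct_single, Divisor.degree_single, Divisor.degree_single, hdeg, hdeg]

theorem divAct_isPrincipal (σ : baseAut k F) {D : Divisor k F} {f : F}
    (hD : ∀ v : Place k F, D v = v.ord f) :
    ∀ v : Place k F, divAct σ D v = v.ord ((σ : RingAut F) f) := by
  intro v
  rw [divAct_apply, hD, ← ord_smul_apply σ (σ⁻¹ • v) f, smul_inv_smul]

theorem divAct_mem_principal (σ : baseAut k F) {D : Divisor k F}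
    (hD : D ∈ Divisor.principal (K := k) (F := F)) :
    divAct σ D ∈ Divisor.principal (K := k) (F := F) := by
  obtain ⟨f, hf, hfD⟩ := hD
  exact ⟨(σ : RingAut F) f, (map_ne_zero _).mpr hf, divAct_isPrincipal σ hfD⟩

/-- `σ` maps `L(D)` onto `L(σ D)`. -/
theorem apply_mem_riemannRochSpace_iff (σ : baseAut k F) (D : Divisor k F) (f : F) :
    (σ : RingAut F) f ∈ riemannRochSpace (divAct σ D) ↔ f ∈ riemannRochSpace D := by
  rw [mem_riemannRochSpace_iff, mem_riemannRochSpace_iff]
  constructor
  · intro h v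
    have := h (σ • v)
    rwa [divAct_apply_smul, ord_smul_apply, map_eq_zero_iff _ (RingEquiv.injective _)] at this
  · intro h v
    have := h (σ⁻¹ • v)
    rw [← ord_smul_apply σ (σ⁻¹ • v) f, smul_inv_smul] at this
    rw [divAct_apply, map_eq_zero_iff _ (RingEquiv.injective _)]
    exact this

/-! ### Action on `Pic⁰` -/

/-- The action on divisors of degree zero. -/
def degZeroAct (hdeg : ∀ v : Place k F, v.deg = 1) (σ : baseAut k F) :
    Divisor.degZero (K := k) (F := F) →+ Divisor.degZero (K := k) (F := F) :=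
  ((divAct σ).toAddMonoidHom.comp (Divisor.degZero (K := k) (F := F)).subtype).codRestrict _
    (fun D => by
      rw [Divisor.mem_degZero]
      show Divisor.degree (divAct σ D.1) = 0
      rw [degree_divAct hdeg]
      exact D.2)

@[simp] theorem coe_degZeroAct (hdeg : ∀ v : Place k F, v.deg = 1) (σ : baseAut k F)
    (D : Divisor.degZero (K := k) (F := F)) :
    ((degZeroAct hdeg σ D : Divisor.degZero (K := k) (F := F)) : Divisor k F) = divAct σ D.1 :=
  rfl

/-- The action on `Pic⁰`. -/
def picAct (hdeg : ∀ v : Place k F, v.deg = 1) (σ : baseAut k F) :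
    AddMonoid.End (Pic0 k F) :=
  QuotientAddGroup.map _ _ (degZeroAct hdeg σ) (by
    intro D hD
    rw [AddSubgroup.mem_comap, AddSubgroup.mem_addSubgroupOf]
    rw [AddSubgroup.mem_addSubgroupOf] at hD
    exact divAct_mem_principal σ hD)

theorem picAct_mk (hdeg : ∀ v : Place k F, v.deg = 1) (σ : baseAut k F)
    (D : Divisor.degZero (K := k) (F := F)) :
    picAct hdeg σ (Pic0.mk D) = Pic0.mk (degZeroAct hdeg σ D) := rfl

theorem picAct_one (hdeg : ∀ v : Place k F, v.deg = 1) :
    picAct hdeg (1 : baseAut k F) = 1 := by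
  ext x
  obtain ⟨D, rfl⟩ := Pic0.mk_surjective x
  rw [picAct_mk]
  congr 1
  apply Subtype.ext
  rw [coe_degZeroAct, divAct_one]

theorem picAct_mul (hdeg : ∀ v : Place k F, v.deg = 1) (σ τ : baseAut k F) :
    picAct hdeg (σ * τ) = picAct hdeg σ * picAct hdeg τ := by
  ext x
  obtain ⟨D, rfl⟩ := Pic0.mk_surjective x
  rw [AddMonoid.End.coe_mul, Function.comp_apply, picAct_mk, picAct_mk, picAct_mk]
  congr 1
  apply Subtype.ext
  rw [coe_degZeroAct, coe_degZeroAct, coe_degZeroAct, divAct_mul]

theorem picAct_pow (hdeg : ∀ v : Place k F, v.deg = 1) (σ : baseAut k F) (r : ℕ) :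
    picAct hdeg (σ ^ r) = picAct hdeg σ ^ r := by
  induction r with
  | zero => rw [pow_zero, pow_zero, picAct_one]
  | succ r ih => rw [pow_succ, pow_succ, picAct_mul, ih]

end Fermat.Agent.H55.Zeta

end
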