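import Fermat.Agent.H55.Zeta.FrobFinite

set_option autoImplicit false
set_option linter.unusedSectionVars false
set_option linter.style.haveILetI false

noncomputable section

open AlgebraicCurve

namespace Fermat.Agent.H55.Zeta

section Twist

variable {k F : Type} [Field k] [Field F] [Algebra k F]

/-- The twisted map `g ↦ w * σ g`. -/
def twist (σ : baseAut k F) (w : F) : F →+ F :=
  (AddMonoidHom.mulLeft w).comp ((σ : RingAut F) : F ≃+* F).toAddMonoidHom

@[simp] theorem twist_apply (σ : baseAut k F) (w g : F) : twist σ w g = w * (σ : RingAut F) g :=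
  rfl

/-- The "norm" `∏_{i<j} σ^i w`. -/
def twistNorm (σ : baseAut k F) (w : F) (j : ℕ) : F :=
  ∏ i ∈ Finset.range j, ((σ ^ i : baseAut k F) : RingAut F) w

theorem twistNorm_zero (σ : baseAut k F) (w : F) : twistNorm σ w 0 = 1 := by
  simp [twistNorm]

theorem twistNorm_succ (σ : baseAut k F) (w : F) (j : ℕ) :
    twistNorm σ w (j + 1) = w * (σ : RingAut F) (twistNorm σ w j) := by
  rw [twistNorm, Finset.prod_range_succ', twistNorm, map_prod, mul_comm]
  have h0 : ((σ ^ 0 : baseAut k F) : RingAut F) w = w := by rw [pow_zero]; rfl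
  rw [h0]
  congr 1
  apply Finset.prod_congr rfl
  intro i _
  rw [pow_succ', Subgroup.coe_mul, RingAut.mul_apply]

theorem twist_iterate (σ : baseAut k F) (w g : F) (j : ℕ) :
    (twist σ w)^[j] g = twistNorm σ w j * ((σ ^ j : baseAut k F) : RingAut F) g := by
  induction j with
  | zero => simp [twistNorm_zero]
  | succ j ih =>
    rw [Function.iterate_succ_apply', ih, twist_apply, twistNorm_succ, map_mul, pow_succ',
      Subgroup.coe_mul, RingAut.mul_apply, mul_assoc]

theorem twistNorm_mul (σ : baseAut k F) (w w' : F) (j : ℕ) :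
    twistNorm σ (w * w') j = twistNorm σ w j * twistNorm σ w' j := by
  simp only [twistNorm, map_mul, Finset.prod_mul_distrib]


theorem twist_iterate_of_norm_one (σ : baseAut k F) {w : F} {s : ℕ}
    (hN : twistNorm σ w s = 1) (m : ℕ) (g : F) :
    (twist σ w)^[s * m] g = ((σ ^ (s * m) : baseAut k F) : RingAut F) g := by
  induction m generalizing g with
  | zero => simp
  | succ m ih =>
    rw [Nat.mul_succ, Function.iterate_add_apply, twist_iterate σ w g s, hN, one_mul, ih,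
      pow_add, Subgroup.coe_mul, RingAut.mul_apply]

theorem twist_mem_riemannRochSpace [HasPrincipalDivisors k F] (σ : baseAut k F) {w : F}
    (hw : w ≠ 0) {E : Divisor k F} (hE : (divOf w : Divisor k F) = divAct σ E - E) {g : F}
    (hg : g ∈ riemannRochSpace E) : twist σ w g ∈ riemannRochSpace E := by
  rw [mem_riemannRochSpace_iff] at hg ⊢
  intro v
  rcases eq_or_ne g 0 with rfl | hg0
  · left; simp
  right
  have hσg : (σ : RingAut F) g ≠ 0 := (map_ne_zero _).mpr hg0
  rw [twist_apply, v.ord_mul hw hσg, ← divOf_apply (k := k) hw, hE, Finsupp.sub_apply,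
    divAct_apply]
  have h1 := (hg (σ⁻¹ • v)).resolve_left hg0
  have h2 := ord_smul_apply σ (σ⁻¹ • v) g
  rw [smul_inv_smul] at h2
  rw [h2]
  omega

variable [IsAlgClosed k] {q : ℕ} [hq : Fact q.Prime] [CharP k q]

/-- **Lemma T'** (twisted descent): the number of fixed points of `g ↦ w σ(g)` on `L(E)`. -/
theorem ncard_twist_fixed [HasPrincipalDivisors k F] (hdesc : FrobDescentStatement)
    (hfinE : ∀ D : Divisor k F, Module.Finite k (riemannRochSpace D))
    (S : FrobStructure k F q) {r : ℕ} (hr : 0 < r) {w : F} (hw : w ≠ 0) {E : Divisor k F}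
    (hE : (divOf w : Divisor k F) = divAct (S.Φ ^ r) E - E) {s : ℕ} (hs : 0 < s)
    (hN : twistNorm (S.Φ ^ r) w s = 1) :
    {g : F | g ∈ riemannRochSpace E ∧ w * ((S.Φ ^ r : baseAut k F) : RingAut F) g = g}.Finite ∧
    {g : F | g ∈ riemannRochSpace E ∧ w * ((S.Φ ^ r : baseAut k F) : RingAut F) g = g}.ncard =
      (q ^ r) ^ Module.finrank k (riemannRochSpace (K := k) E) := by
  haveI := hfinE E
  let Ψ : ↥(riemannRochSpace (K := k) E) →+ ↥(riemannRochSpace (K := k) E) :=
    { toFun := fun g => ⟨twist (S.Φ ^ r) w g.1, twist_mem_riemannRochSpace _ hw hE g.2⟩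
      map_zero' := Subtype.ext (map_zero _)
      map_add' := fun _ _ => Subtype.ext (map_add _ _ _) }
  have hΨ : ∀ (m : ℕ) (g : ↥(riemannRochSpace (K := k) E)),
      ((Ψ^[m] g : ↥(riemannRochSpace (K := k) E)) : F) = (twist (S.Φ ^ r) w)^[m] g.1 := by
    intro m
    induction m with
    | zero => intro g; rfl
    | succ m ih =>
      intro g
      rw [Function.iterate_succ_apply', Function.iterate_succ_apply', ← ih]
      rfl
  have hsemi : ∀ (c : k) (g : ↥(riemannRochSpace (K := k) E)), Ψ (c • g) = c ^ (q ^ r) • Ψ g := by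
    intro c g
    apply Subtype.ext
    show w * ((S.Φ ^ r : baseAut k F) : RingAut F) (c • (g : F)) =
      c ^ (q ^ r) • (w * ((S.Φ ^ r : baseAut k F) : RingAut F) (g : F))
    rw [Algebra.smul_def, map_mul, S.Φ_pow_algebraMap, Algebra.smul_def]
    ring
  have horb : ∀ g : ↥(riemannRochSpace (K := k) E), ∃ m : ℕ, 0 < m ∧ Ψ^[m] g = g := by
    intro g
    obtain ⟨t, ht, hgt⟩ := S.exists_pow_fixed g.1
    refine ⟨s * (r * t), Nat.mul_pos hs (Nat.mul_pos hr ht), Subtype.ext ?_⟩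
    rw [hΨ, twist_iterate_of_norm_one _ hN, ← pow_mul, S.Φ_pow_apply]
    have h1 : (⇑S.φ)^[t] g.1 = g.1 := by rw [← S.Φ_pow_apply]; exact hgt
    have h2 : r * (s * (r * t)) = t * (r * (s * r)) := by ring
    rw [h2, Function.iterate_mul]
    exact Function.iterate_fixed h1 _
  obtain ⟨hfin, hcard⟩ := hdesc k ↥(riemannRochSpace (K := k) E) q r hr Ψ hsemi horb
  have himg : {g : F | g ∈ riemannRochSpace E ∧
      w * ((S.Φ ^ r : baseAut k F) : RingAut F) g = g} =
      Subtype.val '' {v : ↥(riemannRochSpace (K := k) E) | Ψ v = v} := by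
    ext g
    constructor
    · rintro ⟨hg, hfix⟩
      exact ⟨⟨g, hg⟩, Subtype.ext hfix, rfl⟩
    · rintro ⟨v, hv, rfl⟩
      exact ⟨v.2, congrArg Subtype.val hv⟩
  rw [himg]
  exact ⟨hfin.image _, by rw [Set.ncard_image_of_injective _ Subtype.val_injective, hcard]⟩


/-! ### Norms of constants, normalisation -/

theorem twistNorm_algebraMap (S : FrobStructure k F q) (r : ℕ) (b : k) (s : ℕ) :
    twistNorm (S.Φ ^ r) (algebraMap k F b) s =
      algebraMap k F (b ^ ∑ i ∈ Finset.range s, q ^ (r * i)) := by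
  rw [twistNorm, ← Finset.prod_pow_eq_pow_sum, map_prod]
  apply Finset.prod_congr rfl
  intro i _
  rw [← pow_mul, S.Φ_pow_algebraMap]

theorem exists_normalise (S : FrobStructure k F q) (r : ℕ) {u : F} {s : ℕ} (hs : 0 < s)
    {c₀ : k} (hc₀ : c₀ ≠ 0) (hu : twistNorm (S.Φ ^ r) u s = algebraMap k F c₀) :
    ∃ b : k, b ≠ 0 ∧ twistNorm (S.Φ ^ r) (algebraMap k F b * u) s = 1 := by
  have hM : 0 < ∑ i ∈ Finset.range s, q ^ (r * i) := by
    apply Finset.sum_pos
    · intro i _
      exact pow_pos hq.out.pos _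
    · exact ⟨0, Finset.mem_range.mpr hs⟩
  obtain ⟨b, hb⟩ := IsAlgClosed.exists_pow_nat_eq c₀⁻¹ hM
  refine ⟨b, ?_, ?_⟩
  · rintro rfl
    rw [zero_pow hM.ne'] at hb
    exact inv_ne_zero hc₀ hb.symm
  · rw [twistNorm_mul, twistNorm_algebraMap, hu, hb, ← map_mul, inv_mul_cancel₀ hc₀, map_one]

/-! ### Hilbert 90 for divisor classes -/

omit [IsAlgClosed k] hq [CharP k q] in
theorem divOf_twistNorm [HasPrincipalDivisors k F] (σ : baseAut k F) {f : F} (hf : f ≠ 0)
    {D : Divisor k F} (hfD : (divOf f : Divisor k F) = divAct σ D - D) (j : ℕ) :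
    twistNorm σ f j ≠ 0 ∧ (divOf (twistNorm σ f j) : Divisor k F) = divAct (σ ^ j) D - D := by
  induction j with
  | zero =>
    refine ⟨by rw [twistNorm_zero]; exact one_ne_zero, ?_⟩
    rw [twistNorm_zero, pow_zero, divAct_one, sub_self]
    have := divOf_algebraMap (k := k) (F := F) (c := 1) one_ne_zero
    rwa [map_one] at this
  | succ j ih =>
    obtain ⟨h0, h1⟩ := ih
    have h2 : (σ : RingAut F) (twistNorm σ f j) ≠ 0 := (map_ne_zero _).mpr h0
    refine ⟨by rw [twistNorm_succ]; exact mul_ne_zero hf h2, ?_⟩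
    rw [twistNorm_succ, divOf_mul hf h2, ← divAct_divOf σ h0, h1, hfD, map_sub, ← divAct_mul,
      ← pow_succ']
    abel

theorem exists_invariant_representative [HasPrincipalDivisors k F]
    (hdesc : FrobDescentStatement) (hRR : Fermat.Agent.H58.RRHyp k F)
    (S : FrobStructure k F q) (halg : ∀ c : k, ∃ s : ℕ, 0 < s ∧ c ^ q ^ s = c)
    {r : ℕ} (hr : 0 < r) (D : Divisor k F)
    (hfix : divAct (S.Φ ^ r) D - D ∈ Divisor.principal (K := k) (F := F)) :
    ∃ D' : Divisor k F, D' - D ∈ Divisor.principal (K := k) (F := F) ∧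
      divAct (S.Φ ^ r) D' = D' := by
  have hdeg := hRR.deg_one
  obtain ⟨f, hf, hfD'⟩ := hfix
  have hfD : (divOf f : Divisor k F) = divAct (S.Φ ^ r) D - D := (eq_divOf_of_forall hf hfD').symm
  -- a period of `D`
  obtain ⟨t, ht, hDt⟩ := S.exists_pow_divAct_eq hdeg halg D
  have hDt' : divAct ((S.Φ ^ r) ^ t) D = D := by
    rw [← pow_mul, mul_comm]
    exact divAct_pow_mul_eq S.Φ r hDt
  obtain ⟨hN0, hNdiv⟩ := divOf_twistNorm (S.Φ ^ r) hf hfD t
  rw [hDt', sub_self] at hNdiv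
  obtain ⟨c₀, hc₀, hNc⟩ := exists_const_of_divOf_eq_zero hdeg S.v₀ hN0 hNdiv
  obtain ⟨b, hb, hbN⟩ := exists_normalise S r ht hc₀ hNc
  set w := algebraMap k F b * f with hw
  have hw0 : w ≠ 0 := mul_ne_zero ((map_ne_zero _).mpr hb) hf
  -- the divisor `E`
  set n : ℕ := ((genusFF k F : ℤ) - Divisor.degree D).toNat with hn
  set E : Divisor k F := D + Finsupp.single S.v₀ (n : ℤ) with hE
  have hEw : (divOf w : Divisor k F) = divAct (S.Φ ^ r) E - E := by
    rw [hw, divOf_mul ((map_ne_zero _).mpr hb) hf, divOf_algebraMap hb, zero_add, hfD, hE,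
      map_add, divAct_single, S.Φ_pow_smul_v₀]
    abel
  obtain ⟨hfin, hcard⟩ := ncard_twist_fixed hdesc hRR.finite_space S hr hw0 hEw ht hbN
  -- `L(E) ≠ 0`
  have hl : 1 ≤ Module.finrank k (riemannRochSpace (K := k) E) := by
    have h1 := hRR.riemann_inequality E
    have hdegE : Divisor.degree E = Divisor.degree D + (n : ℤ) := by
      rw [hE, map_add, Divisor.degree_single, hdeg, Nat.cast_one, mul_one]
    rw [hdegE] at h1
    have h2 : (genusFF k F : ℤ) - Divisor.degree D ≤ (n : ℤ) := Int.self_le_toNat _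
    have h3 : (1 : ℤ) ≤ (Module.finrank k (riemannRochSpace (K := k) E) : ℤ) := by linarith
    exact_mod_cast h3
  have hQ : 1 < q ^ r := Nat.one_lt_pow hr.ne' hq.out.one_lt
  have hcard2 : 1 < {g : F | g ∈ riemannRochSpace E ∧
      w * ((S.Φ ^ r : baseAut k F) : RingAut F) g = g}.ncard := by
    rw [hcard]
    exact Nat.one_lt_pow (by omega) hQ
  obtain ⟨g, ⟨-, hg⟩, hg0⟩ := Set.exists_ne_of_one_lt_ncard hcard2 (0 : F)
  have hσg : ((S.Φ ^ r : baseAut k F) : RingAut F) g ≠ 0 := (map_ne_zero _).mpr hg0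
  refine ⟨D + divOf g, by rw [add_sub_cancel_left]; exact divOf_mem_principal hg0, ?_⟩
  have h3 : (divOf w : Divisor k F) + divOf (((S.Φ ^ r : baseAut k F) : RingAut F) g) =
      divOf g := by
    rw [← divOf_mul hw0 hσg, hg]
  have h4 : (divOf w : Divisor k F) = divAct (S.Φ ^ r) D - D := by
    rw [hw, divOf_mul ((map_ne_zero _).mpr hb) hf, divOf_algebraMap hb, zero_add, hfD]
  rw [map_add, divAct_divOf _ hg0, ← h3, h4]
  abel


/-! ### The finite field `𝔽_Q` inside `k` -/

omit [IsAlgClosed k] hq [CharP k q] in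
theorem pow_pow_mul_eq_self {x : k} {s : ℕ} (h : x ^ q ^ s = x) (m : ℕ) :
    x ^ q ^ (s * m) = x := by
  induction m with
  | zero => simp
  | succ m ih => rw [Nat.mul_succ, pow_add, pow_mul, ih, h]

theorem card_pow_eq_self (hdesc : FrobDescentStatement)
    (halg : ∀ c : k, ∃ s : ℕ, 0 < s ∧ c ^ q ^ s = c) {r : ℕ} (hr : 0 < r) :
    {c : k | c ^ q ^ r = c}.Finite ∧ {c : k | c ^ q ^ r = c}.ncard = q ^ r := by
  let Ψ : k →+ k :=
    { toFun := fun x => x ^ q ^ r
      map_zero' := zero_pow (pow_pos hq.out.pos r).ne'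
      map_add' := fun x y => add_pow_char_pow x y q r }
  have hΨ : ∀ (m : ℕ) (x : k), Ψ^[m] x = x ^ q ^ (r * m) := by
    intro m
    induction m with
    | zero => intro x; simp
    | succ m ih =>
      intro x
      rw [Function.iterate_succ_apply', ih]
      show (x ^ q ^ (r * m)) ^ q ^ r = _
      rw [← pow_mul, ← pow_add, Nat.mul_succ]
  have := hdesc k k q r hr Ψ (fun c v => by
    show (c • v) ^ q ^ r = c ^ q ^ r • v ^ q ^ r
    rw [smul_eq_mul, smul_eq_mul, mul_pow]) (fun v => by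
    obtain ⟨s, hs, hv⟩ := halg v
    refine ⟨s, hs, ?_⟩
    rw [hΨ, mul_comm]
    exact pow_pow_mul_eq_self hv r)
  rw [Module.finrank_self, pow_one] at this
  exact this


/-! ### Invariant effective divisors in the class of an invariant divisor -/

/-- The `σ`-invariant effective divisors linearly equivalent to `E`. -/
def invClass (σ : baseAut k F) (E : Divisor k F) : Set (Divisor k F) :=
  {D' | 0 ≤ D' ∧ divAct σ D' = D' ∧ D' - E ∈ Divisor.principal (K := k) (F := F)}

omit [IsAlgClosed k] hq [CharP k q] in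
theorem eq_algebraMap_mul_of_divOf_eq [HasPrincipalDivisors k F]
    (hdeg : ∀ v : Place k F, v.deg = 1) (v₀ : Place k F) {g g₀ : F} (hg : g ≠ 0) (hg₀ : g₀ ≠ 0)
    (h : (divOf g : Divisor k F) = divOf g₀) :
    ∃ c : k, c ≠ 0 ∧ g = algebraMap k F c * g₀ := by
  have h1 : (divOf (g * g₀⁻¹) : Divisor k F) = 0 := by
    rw [divOf_mul hg (inv_ne_zero hg₀), divOf_inv hg₀, h, add_neg_cancel]
  obtain ⟨c, hc, hcg⟩ := exists_const_of_divOf_eq_zero hdeg v₀
    (mul_ne_zero hg (inv_ne_zero hg₀)) h1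
  refine ⟨c, hc, ?_⟩
  rw [← hcg, mul_assoc, inv_mul_cancel₀ hg₀, mul_one]

theorem ncard_invClass [HasPrincipalDivisors k F] (hdesc : FrobDescentStatement)
    (hRR : Fermat.Agent.H58.RRHyp k F) (S : FrobStructure k F q)
    (halg : ∀ c : k, ∃ s : ℕ, 0 < s ∧ c ^ q ^ s = c) {r : ℕ} (hr : 0 < r)
    (E : Divisor k F) (hE : divAct (S.Φ ^ r) E = E) :
    (invClass (S.Φ ^ r) E).Finite ∧
      (invClass (S.Φ ^ r) E).ncard * (q ^ r - 1) + 1 =
        (q ^ r) ^ Module.finrank k (riemannRochSpace (K := k) E) := by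
  classical
  have hdeg := hRR.deg_one
  set σ : baseAut k F := S.Φ ^ r with hσ
  have hQ : 1 < q ^ r := Nat.one_lt_pow hr.ne' hq.out.one_lt
  have hone : (divOf (1 : F) : Divisor k F) = 0 := by
    have := divOf_algebraMap (k := k) (F := F) (c := 1) one_ne_zero
    rwa [map_one] at this
  have hσk : ∀ c : k, (σ : RingAut F) (algebraMap k F c) = algebraMap k F (c ^ q ^ r) :=
    fun c => S.Φ_pow_algebraMap r c
  -- the fixed vectors
  obtain ⟨hWfin, hWcard⟩ := ncard_twist_fixed hdesc hRR.finite_space S hr (w := 1) one_ne_zero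
    (E := E) (by rw [hone, hE, sub_self]) (s := 1) Nat.one_pos
    (by rw [twistNorm_succ, twistNorm_zero, map_one, mul_one])
  simp only [one_mul] at hWfin hWcard
  set W : Set F := {g : F | g ∈ riemannRochSpace E ∧ (σ : RingAut F) g = g} with hW
  obtain ⟨hFQfin, hFQcard⟩ := card_pow_eq_self hdesc halg hr
  set FQ : Set k := {c : k | c ^ q ^ r = c} with hFQ
  let Θ : F → Divisor k F := fun g => E + divOf g
  -- (i)
  have hΘmem : ∀ g ∈ W, g ≠ 0 → Θ g ∈ invClass σ E := by
    intro g hg hg0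
    refine ⟨?_, ?_, ?_⟩
    · rw [Finsupp.le_def]
      intro v
      have := ((mem_riemannRochSpace_iff.mp hg.1) v).resolve_left hg0
      simp only [Θ, Finsupp.coe_zero, Pi.zero_apply, Finsupp.add_apply, divOf_apply hg0]
      omega
    · show divAct σ (E + divOf g) = E + divOf g
      rw [map_add, hE, divAct_divOf σ hg0, hg.2]
    · show E + divOf g - E ∈ _
      rw [add_sub_cancel_left]
      exact divOf_mem_principal hg0
  -- (ii)
  have hΘsurj : ∀ D' ∈ invClass σ E, ∃ g ∈ W, g ≠ 0 ∧ Θ g = D' := by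
    rintro D' ⟨hD'0, hD'σ, g', hg'0, hg'⟩
    have hdiv : (divOf g' : Divisor k F) = D' - E := (eq_divOf_of_forall hg'0 hg').symm
    have hmem : g' ∈ riemannRochSpace E := by
      rw [mem_riemannRochSpace_iff]
      intro v
      right
      rw [← hg' v, Finsupp.sub_apply]
      have := Finsupp.le_def.mp hD'0 v
      simp only [Finsupp.coe_zero, Pi.zero_apply] at this
      omega
    have hσg' : (σ : RingAut F) g' ≠ 0 := (map_ne_zero _).mpr hg'0
    have hdiv2 : (divOf ((σ : RingAut F) g') : Divisor k F) = divOf g' := by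
      rw [← divAct_divOf σ hg'0, hdiv, map_sub, hD'σ, hE]
    obtain ⟨c, hc, hcg⟩ := eq_algebraMap_mul_of_divOf_eq hdeg S.v₀ hσg' hg'0 hdiv2
    obtain ⟨a, ha⟩ := IsAlgClosed.exists_pow_nat_eq c⁻¹ (Nat.sub_pos_of_lt hQ)
    have ha0 : a ≠ 0 := by
      rintro rfl
      rw [zero_pow (Nat.sub_pos_of_lt hQ).ne'] at ha
      exact inv_ne_zero hc ha.symm
    have haQ : a ^ q ^ r * c = a := by
      have : q ^ r = (q ^ r - 1) + 1 := (Nat.sub_add_cancel hQ.le).symm
      rw [this, pow_succ, ha, mul_comm _ a, mul_assoc, inv_mul_cancel₀ hc, mul_one]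
    refine ⟨algebraMap k F a * g', ⟨?_, ?_⟩, mul_ne_zero ((map_ne_zero _).mpr ha0) hg'0, ?_⟩
    · rw [← Algebra.smul_def]
      exact Submodule.smul_mem _ _ hmem
    · rw [map_mul, hσk, hcg, ← mul_assoc, ← map_mul, haQ]
    · show E + divOf (algebraMap k F a * g') = D'
      rw [divOf_mul ((map_ne_zero _).mpr ha0) hg'0, divOf_algebraMap ha0, zero_add, hdiv]
      abel
  -- (iii)
  have hfibre : ∀ g₀ ∈ W, g₀ ≠ 0 → ∀ g : F, (g ∈ W ∧ g ≠ 0 ∧ Θ g = Θ g₀) ↔
      ∃ c ∈ FQ, c ≠ 0 ∧ algebraMap k F c * g₀ = g := by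
    intro g₀ hg₀ hg₀0 g
    constructor
    · rintro ⟨hg, hg0, hΘ⟩
      have h1 : (divOf g : Divisor k F) = divOf g₀ := add_left_cancel hΘ
      obtain ⟨c, hc, hcg⟩ := eq_algebraMap_mul_of_divOf_eq hdeg S.v₀ hg0 hg₀0 h1
      refine ⟨c, ?_, hc, hcg.symm⟩
      have h2 := hg.2
      rw [hcg, map_mul, hσk, hg₀.2] at h2
      have h3 := mul_right_cancel₀ hg₀0 h2
      exact (algebraMap k F).injective h3
    · rintro ⟨c, hc, hc0, rfl⟩
      have hcF : algebraMap k F c ≠ 0 := (map_ne_zero _).mpr hc0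
      refine ⟨⟨?_, ?_⟩, mul_ne_zero hcF hg₀0, ?_⟩
      · rw [← Algebra.smul_def]
        exact Submodule.smul_mem _ _ hg₀.1
      · rw [map_mul, hσk, hg₀.2]
        have : c ^ q ^ r = c := hc
        rw [this]
      · show E + divOf (algebraMap k F c * g₀) = E + divOf g₀
        rw [divOf_mul hcF hg₀0, divOf_algebraMap hc0, zero_add]
  -- counting
  have h0W : (0 : F) ∈ W := ⟨Submodule.zero_mem _, map_zero _⟩
  set Wf : Finset F := hWfin.toFinset.erase 0 with hWf
  have hWfmem : ∀ g : F, g ∈ Wf ↔ g ∈ W ∧ g ≠ 0 := by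
    intro g
    rw [hWf, Finset.mem_erase, Set.Finite.mem_toFinset]
    tauto
  have hWfcard : Wf.card + 1 = (q ^ r) ^ Module.finrank k (riemannRochSpace (K := k) E) := by
    rw [hWf, Finset.card_erase_of_mem ((Set.Finite.mem_toFinset hWfin).mpr h0W),
      ← Set.ncard_eq_toFinset_card W hWfin, hWcard]
    exact Nat.sub_add_cancel (Nat.one_le_pow _ _ (by omega))
  set T : Finset (Divisor k F) := Wf.image Θ with hT
  have hTeq : invClass σ E = ↑T := by
    ext D'
    rw [Finset.mem_coe, hT, Finset.mem_image]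
    constructor
    · intro hD'
      obtain ⟨g, hg, hg0, hgD⟩ := hΘsurj D' hD'
      exact ⟨g, (hWfmem g).mpr ⟨hg, hg0⟩, hgD⟩
    · rintro ⟨g, hg, rfl⟩
      exact hΘmem g ((hWfmem g).mp hg).1 ((hWfmem g).mp hg).2
  set FQf : Finset k := hFQfin.toFinset.erase 0 with hFQf
  have h0FQ : (0 : k) ∈ FQ := zero_pow (pow_pos hq.out.pos r).ne'
  have hFQfcard : FQf.card = q ^ r - 1 := by
    rw [hFQf, Finset.card_erase_of_mem ((Set.Finite.mem_toFinset hFQfin).mpr h0FQ),
      ← Set.ncard_eq_toFinset_card FQ hFQfin, hFQcard]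
  have hfibcard : ∀ t ∈ T, (Wf.filter fun g => Θ g = t).card = q ^ r - 1 := by
    intro t ht
    obtain ⟨g₀, hg₀, rfl⟩ := Finset.mem_image.mp ht
    obtain ⟨hg₀W, hg₀0⟩ := (hWfmem g₀).mp hg₀
    rw [← hFQfcard]
    symm
    apply Finset.card_bij (fun c _ => algebraMap k F c * g₀)
    · intro c hc
      rw [hFQf, Finset.mem_erase, Set.Finite.mem_toFinset] at hc
      rw [Finset.mem_filter, hWfmem]
      have := (hfibre g₀ hg₀W hg₀0 (algebraMap k F c * g₀)).mpr ⟨c, hc.2, hc.1, rfl⟩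
      exact ⟨⟨this.1, this.2.1⟩, this.2.2⟩
    · intro c₁ _ c₂ _ h
      exact (algebraMap k F).injective (mul_right_cancel₀ hg₀0 h)
    · intro g hg
      rw [Finset.mem_filter, hWfmem] at hg
      obtain ⟨c, hc, hc0, hcg⟩ := (hfibre g₀ hg₀W hg₀0 g).mp ⟨hg.1.1, hg.1.2, hg.2⟩
      exact ⟨c, by rw [hFQf, Finset.mem_erase, Set.Finite.mem_toFinset]; exact ⟨hc0, hc⟩, hcg⟩
  have hsum : Wf.card = T.card * (q ^ r - 1) := by
    rw [Finset.card_eq_sum_card_image Θ Wf, ← hT, Finset.sum_const_nat hfibcard]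
  refine ⟨by rw [hTeq]; exact T.finite_toSet, ?_⟩
  rw [hTeq, Set.ncard_coe_finset, ← hsum, hWfcard]

end Twist

end Fermat.Agent.H55.Zeta

end
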