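import Fermat.Agent.H55.Zeta.FrobAction

set_option autoImplicit false
set_option linter.unusedSectionVars false
set_option linter.style.haveILetI false

noncomputable section

open AlgebraicCurve

namespace Fermat.Agent.H55.Zeta

section DivOf

variable {k F : Type*} [Field k] [Field F] [Algebra k F] [HasPrincipalDivisors k F]

open scoped Classical in
/-- The divisor of a function (`0` for `f = 0`). -/
def divOf (f : F) : Divisor k F :=
  if hf : f = 0 then 0 else Classical.choose (HasPrincipalDivisors.exists_divisor (K := k) f hf)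

theorem divOf_apply {f : F} (hf : f ≠ 0) (v : Place k F) : (divOf f : Divisor k F) v = v.ord f := by
  rw [divOf, dif_neg hf]
  exact (Classical.choose_spec (HasPrincipalDivisors.exists_divisor (K := k) f hf)).1 v

theorem degree_divOf (f : F) : Divisor.degree (divOf f : Divisor k F) = 0 := by
  by_cases hf : f = 0
  · rw [divOf, dif_pos hf, map_zero]
  · rw [divOf, dif_neg hf]
    exact (Classical.choose_spec (HasPrincipalDivisors.exists_divisor (K := k) f hf)).2

theorem divOf_mem_principal {f : F} (hf : f ≠ 0) :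
    (divOf f : Divisor k F) ∈ Divisor.principal (K := k) (F := F) :=
  ⟨f, hf, fun v => divOf_apply hf v⟩

theorem eq_divOf_of_forall {f : F} (hf : f ≠ 0) {D : Divisor k F}
    (hD : ∀ v : Place k F, D v = v.ord f) : D = divOf f := by
  ext v
  rw [hD, divOf_apply hf]

theorem divOf_mul {f g : F} (hf : f ≠ 0) (hg : g ≠ 0) :
    (divOf (f * g) : Divisor k F) = divOf f + divOf g := by
  ext v
  rw [Finsupp.add_apply, divOf_apply (mul_ne_zero hf hg), divOf_apply hf, divOf_apply hg,
    v.ord_mul hf hg]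

theorem divOf_inv {f : F} (hf : f ≠ 0) : (divOf f⁻¹ : Divisor k F) = -divOf f := by
  ext v
  rw [Finsupp.neg_apply, divOf_apply (inv_ne_zero hf), divOf_apply hf, v.ord_inv]

theorem divOf_algebraMap {c : k} (hc : c ≠ 0) : (divOf (algebraMap k F c) : Divisor k F) = 0 := by
  ext v
  rw [divOf_apply ((map_ne_zero _).mpr hc), Fermat.Agent.H23.ord_algebraMap]
  rfl

theorem divAct_divOf (σ : baseAut k F) {f : F} (hf : f ≠ 0) :
    divAct σ (divOf f) = divOf ((σ : RingAut F) f) :=
  eq_divOf_of_forall ((map_ne_zero _).mpr hf)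
    (divAct_isPrincipal σ (fun v => divOf_apply hf v))

/-- zeros of a nonzero function are finite in number -/
theorem finite_ord_ne_zero {f : F} (hf : f ≠ 0) : {v : Place k F | v.ord f ≠ 0}.Finite := by
  refine (divOf f : Divisor k F).support.finite_toSet.subset fun v hv => ?_
  rw [Finset.mem_coe, Finsupp.mem_support_iff, divOf_apply hf]
  exact hv

/-- A function with trivial divisor is a nonzero constant. -/
theorem exists_const_of_divOf_eq_zero (hdeg : ∀ v : Place k F, v.deg = 1) (v₀ : Place k F)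
    {f : F} (hf : f ≠ 0) (h : (divOf f : Divisor k F) = 0) :
    ∃ c : k, c ≠ 0 ∧ f = algebraMap k F c := by
  have hmem : f ∈ riemannRochSpace (0 : Divisor k F) := by
    rw [mem_riemannRochSpace_iff]
    intro v
    right
    rw [← divOf_apply hf, h]
    simp
  obtain ⟨c, hc⟩ := (Fermat.Agent.H58.rr_mem_zero_iff hdeg v₀).mp hmem
  refine ⟨c, ?_, hc⟩
  rintro rfl
  rw [map_zero] at hc
  exact hf hc

end DivOf

section Frob

variable {k F : Type*} [Field k] [Field F] [Algebra k F] [IsAlgClosed k] {q : ℕ}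
  [hq : Fact q.Prime]

/-- The Frobenius of a Frobenius structure as an element of `baseAut`. -/
def FrobStructure.Φ (S : FrobStructure k F q) : baseAut k F :=
  ⟨S.φ, fun c => ⟨⟨c ^ q, S.map_algebraMap c⟩, by
    obtain ⟨d, hd⟩ := IsAlgClosed.exists_pow_nat_eq c hq.out.pos
    refine ⟨d, ?_⟩
    rw [← hd, ← S.map_algebraMap d]
    exact ringAut_inv_apply_self _ _⟩⟩

@[simp] theorem FrobStructure.coe_Φ (S : FrobStructure k F q) : ((S.Φ : baseAut k F) : RingAut F) = S.φ :=
  rfl

theorem FrobStructure.Φ_pow_apply (S : FrobStructure k F q) (r : ℕ) (f : F) :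
    (((S.Φ ^ r : baseAut k F) : RingAut F)) f = (⇑S.φ)^[r] f := by
  rw [SubmonoidClass.coe_pow, RingAut.coe_pow]
  rfl

theorem FrobStructure.Φ_pow_algebraMap (S : FrobStructure k F q) (r : ℕ) (c : k) :
    (((S.Φ ^ r : baseAut k F) : RingAut F)) (algebraMap k F c) = algebraMap k F (c ^ q ^ r) := by
  induction r generalizing c with
  | zero => simp
  | succ r ih =>
    rw [pow_succ', Subgroup.coe_mul, RingAut.mul_apply, ih, FrobStructure.coe_Φ,
      S.map_algebraMap, ← pow_mul, pow_succ]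

theorem FrobStructure.Φ_pow_x (S : FrobStructure k F q) (r : ℕ) :
    (((S.Φ ^ r : baseAut k F) : RingAut F)) S.x = S.x := by
  rw [S.Φ_pow_apply]
  exact Function.iterate_fixed S.x_fixed r

theorem FrobStructure.exists_pow_fixed (S : FrobStructure k F q) (f : F) :
    ∃ r : ℕ, 0 < r ∧ (((S.Φ ^ r : baseAut k F) : RingAut F)) f = f := by
  obtain ⟨r, hr, h⟩ := S.finite_orbit f
  exact ⟨r, hr, by rw [S.Φ_pow_apply]; exact h⟩

theorem FrobStructure.Φ_smul_v₀ (S : FrobStructure k F q) : S.Φ • S.v₀ = S.v₀ := by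
  apply Place.ext
  ext x
  rw [mem_smul_place, S.v₀_fixed, FrobStructure.coe_Φ]
  show S.φ (S.φ⁻¹ x) ∈ _ ↔ _
  rw [ringAut_apply_inv_self]

theorem FrobStructure.Φ_pow_smul_v₀ (S : FrobStructure k F q) (r : ℕ) :
    (S.Φ ^ r) • S.v₀ = S.v₀ := by
  induction r with
  | zero => simp
  | succ r ih => rw [pow_succ, mul_smul, S.Φ_smul_v₀, ih]


/-! ### Finiteness -/

theorem finite_pow_eq_self (k : Type*) [Field k] {Q : ℕ} (hQ : 1 < Q) :
    {c : k | c ^ Q = c}.Finite := by
  classical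
  have hne : (Polynomial.X ^ Q - Polynomial.X : Polynomial k) ≠ 0 :=
    FiniteField.X_pow_card_sub_X_ne_zero k hQ
  refine (Polynomial.X ^ Q - Polynomial.X : Polynomial k).roots.toFinset.finite_toSet.subset
    fun c hc => ?_
  have hc' : c ^ Q = c := hc
  rw [Finset.mem_coe, Multiset.mem_toFinset, Polynomial.mem_roots hne, Polynomial.IsRoot.def]
  simp [hc']

variable [HasPrincipalDivisors k F]

theorem FrobStructure.x_sub_ne_zero (S : FrobStructure k F q) (c : k) :
    S.x - algebraMap k F c ≠ 0 := sub_ne_zero.mpr (S.x_nonconst c)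

theorem FrobStructure.x_ne_zero (S : FrobStructure k F q) : S.x ≠ 0 := by
  have := S.x_nonconst 0
  rwa [map_zero] at this

/-- The "value" of `x` at a fixed place of `Φ ^ s` lies in `𝔽_{q^s}`. -/
theorem FrobStructure.pow_eq_of_fixed (S : FrobStructure k F q) {s : ℕ} {v : Place k F}
    (hv : (S.Φ ^ s) • v = v) {c : k} (hc : 0 < v.ord (S.x - algebraMap k F c)) :
    c ^ q ^ s = c := by
  by_contra hne
  have h1 : 0 < v.ord (S.x - algebraMap k F (c ^ q ^ s)) := by
    have := ord_smul_apply (S.Φ ^ s) v (S.x - algebraMap k F c)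
    rw [hv, map_sub, S.Φ_pow_x, S.Φ_pow_algebraMap] at this
    rw [this]
    exact hc
  have h2 : algebraMap k F (c ^ q ^ s - c) ≠ 0 :=
    (map_ne_zero _).mpr (sub_ne_zero.mpr hne)
  have h3 : algebraMap k F (c ^ q ^ s - c) =
      (S.x - algebraMap k F c) + -(S.x - algebraMap k F (c ^ q ^ s)) := by
    rw [map_sub]; ring
  have h4 : (1 : ℤ) ≤ v.ord (algebraMap k F (c ^ q ^ s - c)) := by
    rw [h3]
    apply Fermat.Agent.H23.ord_add_ge v (by rw [← h3]; exact h2) 1 (Or.inr hc) (Or.inr _)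
    rw [Fermat.Agent.H23.ord_neg]
    exact h1
  rw [Fermat.Agent.H23.ord_algebraMap] at h4
  omega

theorem FrobStructure.finite_fixed_places (S : FrobStructure k F q)
    (hdeg : ∀ v : Place k F, v.deg = 1) {s : ℕ} (hs : 0 < s) :
    {v : Place k F | (S.Φ ^ s) • v = v}.Finite := by
  have hQ : 1 < q ^ s := Nat.one_lt_pow hs.ne' hq.out.one_lt
  have hroots := finite_pow_eq_self k hQ
  have hfin : ({v : Place k F | v.ord S.x ≠ 0} ∪
      ⋃ c ∈ {c : k | c ^ q ^ s = c}, {v : Place k F | v.ord (S.x - algebraMap k F c) ≠ 0}).Finite :=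
    (finite_ord_ne_zero S.x_ne_zero).union
      (hroots.biUnion fun c _ => finite_ord_ne_zero (S.x_sub_ne_zero c))
  refine hfin.subset fun v hv => ?_
  by_cases hx : v.ord S.x < 0
  · exact Or.inl (ne_of_lt hx)
  · right
    obtain ⟨c, hc⟩ := Fermat.Agent.H23.exists_const_ord_sub_pos v (hdeg v)
      (f := S.x) (Or.inr (not_lt.mp hx))
    rcases hc with hc | hc
    · exact absurd hc (S.x_nonconst c)
    · simp only [Set.mem_iUnion]
      exact ⟨c, S.pow_eq_of_fixed hv hc, ne_of_gt hc⟩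

omit [IsAlgClosed k] hq [HasPrincipalDivisors k F] in
/-- Pigeonhole: a point of a finite stable set is periodic. -/
theorem exists_pow_smul_eq_of_finite (σ : baseAut k F) (T : Set (Place k F)) (hT : T.Finite)
    (hσ : ∀ w ∈ T, σ • w ∈ T) {v : Place k F} (hv : v ∈ T) :
    ∃ r : ℕ, 0 < r ∧ (σ ^ r) • v = v := by
  have hmem : ∀ i : ℕ, (σ ^ i) • v ∈ T := by
    intro i
    induction i with
    | zero => simpa using hv
    | succ i ih => rw [pow_succ', mul_smul]; exact hσ _ ih
  haveI : Finite T := hT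
  obtain ⟨i, j, hij, h⟩ := Finite.exists_ne_map_eq_of_infinite
    (fun i : ℕ => (⟨(σ ^ i) • v, hmem i⟩ : T))
  have h' : (σ ^ i) • v = (σ ^ j) • v := congrArg Subtype.val h
  wlog hlt : i < j generalizing i j
  · exact this j i hij.symm h.symm h'.symm (lt_of_le_of_ne (not_lt.mp hlt) hij.symm)
  refine ⟨j - i, Nat.sub_pos_of_lt hlt, ?_⟩
  have h2 : (σ ^ i) • ((σ ^ (j - i)) • v) = (σ ^ i) • v := by
    rw [← mul_smul, ← pow_add, Nat.add_sub_cancel' hlt.le, h']
  exact smul_left_cancel _ h2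

theorem FrobStructure.exists_pow_smul_eq (S : FrobStructure k F q)
    (hdeg : ∀ v : Place k F, v.deg = 1) (halg : ∀ c : k, ∃ s : ℕ, 0 < s ∧ c ^ q ^ s = c)
    (v : Place k F) : ∃ r : ℕ, 0 < r ∧ (S.Φ ^ r) • v = v := by
  by_cases hx : v.ord S.x < 0
  · refine exists_pow_smul_eq_of_finite S.Φ {w | w.ord S.x < 0}
      ((finite_ord_ne_zero S.x_ne_zero).subset fun w hw => ne_of_lt hw) ?_ hx
    intro w hw
    have := ord_smul_apply S.Φ w S.x
    rw [FrobStructure.coe_Φ, S.x_fixed] at this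
    show (S.Φ • w).ord S.x < 0
    rw [this]
    exact hw
  · obtain ⟨c, hc⟩ := Fermat.Agent.H23.exists_const_ord_sub_pos v (hdeg v)
      (f := S.x) (Or.inr (not_lt.mp hx))
    rcases hc with hc | hc
    · exact absurd hc (S.x_nonconst c)
    obtain ⟨s, hs, hcs⟩ := halg c
    obtain ⟨r, hr, h⟩ := exists_pow_smul_eq_of_finite (S.Φ ^ s)
      {w | 0 < w.ord (S.x - algebraMap k F c)}
      ((finite_ord_ne_zero (S.x_sub_ne_zero c)).subset fun w hw => ne_of_gt hw) (by
        intro w hw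
        have := ord_smul_apply (S.Φ ^ s) w (S.x - algebraMap k F c)
        rw [map_sub, S.Φ_pow_x, S.Φ_pow_algebraMap, hcs] at this
        show 0 < ((S.Φ ^ s) • w).ord (S.x - algebraMap k F c)
        rw [this]
        exact hw) hc
    exact ⟨s * r, Nat.mul_pos hs hr, by rw [pow_mul]; exact h⟩

omit [IsAlgClosed k] hq [HasPrincipalDivisors k F] in
theorem divAct_pow_mul_eq (σ : baseAut k F) {r : ℕ} (m : ℕ) {D : Divisor k F}
    (h : divAct (σ ^ r) D = D) : divAct (σ ^ (r * m)) D = D := by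
  induction m with
  | zero => simp [divAct_one]
  | succ m ih => rw [Nat.mul_succ, pow_add, divAct_mul, h, ih]

theorem FrobStructure.exists_pow_divAct_eq (S : FrobStructure k F q)
    (hdeg : ∀ v : Place k F, v.deg = 1) (halg : ∀ c : k, ∃ s : ℕ, 0 < s ∧ c ^ q ^ s = c)
    (D : Divisor k F) : ∃ r : ℕ, 0 < r ∧ divAct (S.Φ ^ r) D = D := by
  induction D using Finsupp.induction_linear with
  | zero => exact ⟨1, Nat.one_pos, map_zero _⟩
  | add D E hD hE =>
    obtain ⟨r₁, hr₁, h₁⟩ := hD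
    obtain ⟨r₂, hr₂, h₂⟩ := hE
    refine ⟨r₁ * r₂, Nat.mul_pos hr₁ hr₂, ?_⟩
    rw [map_add, divAct_pow_mul_eq S.Φ r₂ h₁, mul_comm, divAct_pow_mul_eq S.Φ r₁ h₂]
  | single v n =>
    obtain ⟨r, hr, h⟩ := S.exists_pow_smul_eq hdeg halg v
    exact ⟨r, hr, by rw [divAct_single, h]⟩

theorem FrobStructure.exists_pow_picAct_eq (S : FrobStructure k F q)
    (hdeg : ∀ v : Place k F, v.deg = 1) (halg : ∀ c : k, ∃ s : ℕ, 0 < s ∧ c ^ q ^ s = c)
    (x : Pic0 k F) : ∃ r : ℕ, 0 < r ∧ (picAct hdeg S.Φ ^ r) x = x := by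
  obtain ⟨D, rfl⟩ := Pic0.mk_surjective x
  obtain ⟨r, hr, h⟩ := S.exists_pow_divAct_eq hdeg halg D.1
  refine ⟨r, hr, ?_⟩
  rw [← picAct_pow, picAct_mk]
  congr 1
  exact Subtype.ext h

end Frob

end Fermat.Agent.H55.Zeta

end
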