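import Mathlib

set_option autoImplicit false

namespace Fermat.Agent.H55.Zeta

open Polynomial in
/-- In characteristic `p`, `(ψ - 1) ^ p ^ b = ψ ^ p ^ b - 1` for an endomorphism `ψ`. -/
theorem end_sub_one_pow_char_pow {p : ℕ} [Fact p.Prime] {U : Type*} [AddCommGroup U]
    [Module (ZMod p) U] (ψ : Module.End (ZMod p) U) (b : ℕ) :
    (ψ - 1) ^ p ^ b = ψ ^ p ^ b - 1 := by
  have h : ((X : (ZMod p)[X]) - 1) ^ p ^ b = X ^ p ^ b - 1 := by
    rw [sub_pow_char_pow, one_pow]
  have := congrArg (aeval ψ) h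
  simpa using this

/-- A unipotent automorphism of `p`-power order on an `𝔽_p`-space of dimension `≤ p ^ c`
has order dividing `p ^ c`. -/
theorem end_pow_eq_one_of_finrank_le {p : ℕ} [Fact p.Prime] {U : Type*} [AddCommGroup U]
    [Module (ZMod p) U] [FiniteDimensional (ZMod p) U] (ψ : Module.End (ZMod p) U) (b c : ℕ)
    (h : ψ ^ p ^ b = 1) (hc : Module.finrank (ZMod p) U ≤ p ^ c) : ψ ^ p ^ c = 1 := by
  have h1 : (ψ - 1) ^ p ^ b = 0 := by rw [end_sub_one_pow_char_pow, h, sub_self]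
  have h2 : LinearMap.ker ((ψ - 1) ^ Module.finrank (ZMod p) U) = ⊤ := by
    apply top_unique
    calc (⊤ : Submodule (ZMod p) U) = LinearMap.ker ((ψ - 1) ^ p ^ b) := by
          rw [h1]; exact (LinearMap.ker_zero).symm
      _ ≤ _ := Module.End.ker_pow_le_ker_pow_finrank _ _
  have h3 : (ψ - 1) ^ Module.finrank (ZMod p) U = 0 := LinearMap.ker_eq_top.mp h2
  have h4 : (ψ - 1) ^ p ^ c = 0 := by
    obtain ⟨k, hk⟩ := Nat.exists_eq_add_of_le hc
    rw [hk, pow_add, h3, zero_mul]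
  rw [end_sub_one_pow_char_pow] at h4
  exact sub_eq_zero.mp h4

section Group

variable {G : Type*} [AddCommGroup G]

theorem end_pow_fixed_of_dvd (φ : AddMonoid.End G) {r s : ℕ} {x : G} (h : (φ ^ r) x = x)
    (hrs : r ∣ s) : (φ ^ s) x = x := by
  obtain ⟨k, rfl⟩ := hrs
  induction k with
  | zero => simp
  | succ k ih =>
    rw [Nat.mul_succ, pow_add, AddMonoid.End.coe_mul, Function.comp_apply, h]
    exact ih

/-- The subgroup of `p`-torsion elements fixed by `φ ^ r`. -/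
def fixP (p : ℕ) (φ : AddMonoid.End G) (r : ℕ) : AddSubgroup G where
  carrier := {x | p • x = 0 ∧ (φ ^ r) x = x}
  zero_mem' := ⟨smul_zero _, map_zero _⟩
  add_mem' := by
    rintro x y ⟨hx, hx'⟩ ⟨hy, hy'⟩
    exact ⟨by rw [smul_add, hx, hy, add_zero], by rw [map_add, hx', hy']⟩
  neg_mem' := by
    rintro x ⟨hx, hx'⟩
    exact ⟨by rw [smul_neg, hx, neg_zero], by rw [map_neg, hx']⟩

theorem mem_fixP {p : ℕ} {φ : AddMonoid.End G} {r : ℕ} {x : G} :
    x ∈ fixP p φ r ↔ p • x = 0 ∧ (φ ^ r) x = x := Iff.rfl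

theorem fixP_mono (p : ℕ) (φ : AddMonoid.End G) {r s : ℕ} (h : r ∣ s) :
    fixP p φ r ≤ fixP p φ s := fun _ hx => ⟨hx.1, end_pow_fixed_of_dvd φ hx.2 h⟩

theorem end_pow_mem_fixP {p : ℕ} {φ : AddMonoid.End G} {r : ℕ} (k : ℕ) {x : G}
    (hx : x ∈ fixP p φ r) : (φ ^ k) x ∈ fixP p φ r := by
  refine ⟨by rw [← map_nsmul, hx.1, map_zero], ?_⟩
  have h1 : (φ ^ r) ((φ ^ k) x) = (φ ^ (r + k)) x := by
    rw [pow_add, AddMonoid.End.coe_mul, Function.comp_apply]
  have h2 : (φ ^ k) ((φ ^ r) x) = (φ ^ (r + k)) x := by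
    rw [add_comm, pow_add, AddMonoid.End.coe_mul, Function.comp_apply]
  rw [h1, ← h2, hx.2]

/-- Additive version of `end_pow_eq_one_of_finrank_le` for a finite group killed by `p`. -/
theorem addEnd_pow_eq_one_of_card_le {p : ℕ} [Fact p.Prime] {U : Type*} [AddCommGroup U]
    [Finite U] (hp : ∀ x : U, p • x = 0) (ψ₀ : AddMonoid.End U) (b c : ℕ)
    (h : ψ₀ ^ p ^ b = 1) (hcard : Nat.card U ≤ p ^ p ^ c) : ψ₀ ^ p ^ c = 1 := by
  let _ : Module (ZMod p) U := AddCommGroup.zmodModule (n := p) hp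
  have : Module.Finite (ZMod p) U := Module.Finite.of_finite
  let ψ : Module.End (ZMod p) U := AddMonoidHom.toZModLinearMap p ψ₀
  have hψ : ∀ (k : ℕ) (x : U), (ψ ^ k) x = (ψ₀ ^ k) x := by
    intro k
    induction k with
    | zero => intro x; simp
    | succ k ih =>
      intro x
      rw [pow_succ, Module.End.mul_apply, ih, pow_succ, AddMonoid.End.coe_mul,
        Function.comp_apply]
      rfl
  have h1 : ψ ^ p ^ b = 1 := by
    ext x
    rw [hψ, h]
    rfl
  have hfr : Module.finrank (ZMod p) U ≤ p ^ c := by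
    have h := Module.natCard_eq_pow_finrank (K := ZMod p) (V := U)
    rw [Nat.card_zmod] at h
    rw [h] at hcard
    exact (Nat.pow_le_pow_iff_right (Fact.out : p.Prime).one_lt).mp hcard
  have h2 := end_pow_eq_one_of_finrank_le ψ b c h1 hfr
  ext x
  rw [← hψ, h2]
  rfl

/-- Key step: if the `p`-torsion fixed by `φ ^ (r * p ^ b)` is finite of cardinality at most
`p ^ (p ^ c)`, then it is already fixed by `φ ^ (r * p ^ c)`. -/
theorem fixP_le_of_card_le (p : ℕ) [Fact p.Prime] (φ : AddMonoid.End G) (r b c : ℕ)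
    [Finite (fixP p φ (r * p ^ b))] (hcard : Nat.card (fixP p φ (r * p ^ b)) ≤ p ^ p ^ c) :
    fixP p φ (r * p ^ b) ≤ fixP p φ (r * p ^ c) := by
  -- the restriction of `φ ^ r` to `U`
  let ψ₀ : AddMonoid.End (fixP p φ (r * p ^ b)) :=
    { toFun := fun x => ⟨(φ ^ r) x.1, end_pow_mem_fixP r x.2⟩
      map_zero' := by apply Subtype.ext; simp
      map_add' := fun x y => by apply Subtype.ext; simp }
  have hψ : ∀ (k : ℕ) (x : fixP p φ (r * p ^ b)), (((ψ₀ ^ k) x : fixP p φ (r * p ^ b)) : G) =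
      (φ ^ (r * k)) x.1 := by
    intro k
    induction k with
    | zero => intro x; simp
    | succ k ih =>
      intro x
      rw [pow_succ, AddMonoid.End.coe_mul, Function.comp_apply, ih, Nat.mul_succ, pow_add,
        AddMonoid.End.coe_mul, Function.comp_apply]
      rfl
  have h1 : ψ₀ ^ p ^ b = 1 := by
    ext x
    rw [hψ]
    exact x.2.2
  have h2 := addEnd_pow_eq_one_of_card_le (p := p) (fun x => Subtype.ext (by simpa using x.2.1))
    ψ₀ b c h1 hcard
  intro x hx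
  refine ⟨hx.1, ?_⟩
  have := hψ (p ^ c) ⟨x, hx⟩
  rw [h2] at this
  exact this.symm


/-- A set all of whose finite subsets have at most `B` elements is finite with at most `B`
elements. -/
theorem finite_ncard_le_of_forall_finset {α : Type*} (s : Set α) (B : ℕ)
    (h : ∀ S : Finset α, (↑S : Set α) ⊆ s → S.card ≤ B) : s.Finite ∧ s.ncard ≤ B := by
  have hfin : s.Finite := by
    by_contra hinf
    obtain ⟨t, hts, htc⟩ := Set.Infinite.exists_subset_card_eq hinf (B + 1)
    have := h t hts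
    omega
  refine ⟨hfin, ?_⟩
  have := h hfin.toFinset (by simp)
  rwa [← Set.ncard_eq_toFinset_card s hfin] at this

theorem exists_forall_le_pow (p C n : ℕ) (hp : 2 ≤ p) :
    ∃ a₀ : ℕ, ∀ c : ℕ, a₀ ≤ c → C + n * (c + 1) ≤ p ^ c := by
  have key : ∀ c : ℕ, C + 2 * n + 2 ≤ c → C + n * (c + 1) + n ≤ 2 ^ c := by
    intro c hc
    induction c, hc using Nat.le_induction with
    | base =>
      have h1 : C + 1 ≤ 2 ^ C := Nat.lt_two_pow_self
      have h2 : n + 1 ≤ 2 ^ n := Nat.lt_two_pow_self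
      have h3 : (2 : ℕ) ^ (C + 2 * n + 2) = 4 * 2 ^ C * (2 ^ n * 2 ^ n) := by ring
      rw [h3]
      have h4 : (n + 1) * (n + 1) ≤ 2 ^ n * 2 ^ n := Nat.mul_le_mul h2 h2
      have h5 : 4 * (C + 1) * ((n + 1) * (n + 1)) ≤ 4 * 2 ^ C * (2 ^ n * 2 ^ n) :=
        Nat.mul_le_mul (Nat.mul_le_mul_left 4 h1) h4
      refine le_trans ?_ h5
      have e1 := Nat.zero_le (C * n * n)
      have e2 := Nat.zero_le (C * n)
      have e3 := Nat.zero_le (n * n)
      nlinarith
    | succ c hc ih =>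
      rw [pow_succ]
      nlinarith
  refine ⟨C + 2 * n + 2, fun c hc => ?_⟩
  calc C + n * (c + 1) ≤ C + n * (c + 1) + n := Nat.le_add_right _ _
    _ ≤ 2 ^ c := key c hc
    _ ≤ p ^ c := Nat.pow_le_pow_left hp c

/-- **Group lemma (Z6).** Let `φ` be an endomorphism of an abelian group `G` such that every
`p`-torsion element is periodic and such that, for every `r ≥ 1`, the `p`-primary elements
fixed by `φ ^ r` number at most `p ^ (C + n * v_p(r))`.  Then `#G[p ^ m] ≤ p ^ (C' + n * m)`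
for a constant `C'`. -/
theorem card_torsion_le_of_fixed_le (p : ℕ) [hp : Fact p.Prime] (φ : AddMonoid.End G) (n C : ℕ)
    (horb : ∀ x : G, p • x = 0 → ∃ r : ℕ, 0 < r ∧ (φ ^ r) x = x)
    (hfix : ∀ r : ℕ, 0 < r → ∀ S : Finset G,
      (∀ x ∈ S, (φ ^ r) x = x ∧ ∃ j : ℕ, p ^ j • x = 0) →
        S.card ≤ p ^ (C + n * padicValNat p r)) :
    ∃ C' : ℕ, ∀ m : ℕ, ∀ S : Finset G, (∀ x ∈ S, p ^ m • x = 0) → S.card ≤ p ^ (C' + n * m) := by
  have hp1 : 1 < p := hp.out.one_lt
  have hp0 : 0 < p := hp.out.pos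
  -- finiteness and cardinality of `fixP`
  have hF : ∀ r : ℕ, 0 < r → (fixP p φ r : Set G).Finite ∧
      Nat.card (fixP p φ r) ≤ p ^ (C + n * padicValNat p r) := by
    intro r hr
    have := finite_ncard_le_of_forall_finset (fixP p φ r : Set G) _ (fun S hS =>
      hfix r hr S (fun x hx => ⟨(hS hx).2, 1, by simpa using (hS hx).1⟩))
    refine ⟨this.1, ?_⟩
    have h2 := this.2
    rw [← Nat.card_coe_set_eq] at h2
    exact h2
  obtain ⟨a₀, ha₀⟩ := exists_forall_le_pow p C n hp.out.two_le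
  -- uniform containment
  have hstep : ∀ r' : ℕ, 0 < r' → ¬ p ∣ r' → ∀ b : ℕ, a₀ ≤ b →
      fixP p φ (r' * p ^ b) ≤ fixP p φ (r' * p ^ a₀) := by
    intro r' hr' hpr' b hb
    induction b, hb using Nat.le_induction with
    | base => exact le_rfl
    | succ c hc ih =>
      refine le_trans ?_ ih
      have hpos : 0 < r' * p ^ (c + 1) := Nat.mul_pos hr' (pow_pos hp0 _)
      have : Finite (fixP p φ (r' * p ^ (c + 1))) := (hF _ hpos).1
      apply fixP_le_of_card_le
      refine (hF _ hpos).2.trans ?_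
      apply Nat.pow_le_pow_right hp0
      have hv : padicValNat p (r' * p ^ (c + 1)) = c + 1 := by
        rw [padicValNat.mul hr'.ne' (pow_pos hp0 _).ne', padicValNat.prime_pow,
          padicValNat.eq_zero_of_not_dvd hpr', zero_add]
      rw [hv]
      exact ha₀ c hc
  have hunif : ∀ r : ℕ, 0 < r → ∃ s : ℕ, 0 < s ∧ fixP p φ r ≤ fixP p φ s ∧
      padicValNat p s = a₀ := by
    intro r hr
    obtain ⟨b, r', hpr', hrr'⟩ := Nat.exists_eq_pow_mul_and_not_dvd hr.ne' p hp1.ne'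
    have hr' : 0 < r' := Nat.pos_of_ne_zero (by rintro rfl; simp at hpr')
    refine ⟨r' * p ^ a₀, Nat.mul_pos hr' (pow_pos hp0 _), ?_, ?_⟩
    · rcases le_total a₀ b with h | h
      · rw [hrr', mul_comm]
        exact hstep r' hr' hpr' b h
      · apply fixP_mono
        rw [hrr', mul_comm]
        exact Nat.mul_dvd_mul_left _ (pow_dvd_pow p h)
    · rw [padicValNat.mul hr'.ne' (pow_pos hp0 _).ne', padicValNat.prime_pow,
        padicValNat.eq_zero_of_not_dvd hpr', zero_add]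
  have hbound : ∀ r : ℕ, 0 < r → Nat.card (fixP p φ r) ≤ p ^ (C + n * a₀) := by
    intro r hr
    obtain ⟨s, hs, hle, hv⟩ := hunif r hr
    have : Finite (fixP p φ s) := (hF s hs).1
    calc Nat.card (fixP p φ r) ≤ Nat.card (fixP p φ s) := AddSubgroup.card_le_of_le hle
      _ ≤ p ^ (C + n * padicValNat p s) := (hF s hs).2
      _ = p ^ (C + n * a₀) := by rw [hv]
  -- a single period for all of `G[p]`
  obtain ⟨s₁, hs₁, hs₁fix⟩ : ∃ s₁ : ℕ, 0 < s₁ ∧ ∀ x : G, p • x = 0 → (φ ^ s₁) x = x := by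
    let T : Set ℕ := (fun r => Nat.card (fixP p φ r)) '' {r | 0 < r}
    have hTne : T.Nonempty := ⟨_, ⟨1, Nat.one_pos, rfl⟩⟩
    have hTb : BddAbove T := ⟨p ^ (C + n * a₀), by
      rintro _ ⟨r, hr, rfl⟩
      exact hbound r hr⟩
    obtain ⟨r₀, hr₀, hr₀max⟩ := Nat.sSup_mem hTne hTb
    have hr₀pos : 0 < r₀ := hr₀
    refine ⟨r₀, hr₀pos, fun x hx => ?_⟩
    obtain ⟨s, hs, hxs⟩ := horb x hx
    have hpos : 0 < r₀ * s := Nat.mul_pos hr₀pos hs
    have : Finite (fixP p φ (r₀ * s)) := (hF _ hpos).1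
    have hle : fixP p φ r₀ ≤ fixP p φ (r₀ * s) := fixP_mono p φ (dvd_mul_right _ _)
    have hcard : Nat.card (fixP p φ (r₀ * s)) ≤ Nat.card (fixP p φ r₀) := by
      have : Nat.card (fixP p φ (r₀ * s)) ∈ T := ⟨r₀ * s, hpos, rfl⟩
      have h2 := le_csSup hTb this
      rw [← hr₀max] at h2
      exact h2
    have heq : fixP p φ r₀ = fixP p φ (r₀ * s) := by
      apply SetLike.coe_injective
      apply Set.eq_of_subset_of_ncard_le hle _ (Set.toFinite _)
      rw [← Nat.card_coe_set_eq, ← Nat.card_coe_set_eq]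
      exact hcard
    have hxmem : x ∈ fixP p φ (r₀ * s) := fixP_mono p φ (dvd_mul_left _ _) ⟨hx, hxs⟩
    rw [← heq] at hxmem
    exact hxmem.2
  -- step 2 : `φ ^ (s₁ * p ^ a)` fixes `G[p ^ (a + 1)]`
  have hstep2 : ∀ a : ℕ, ∀ x : G, p ^ (a + 1) • x = 0 → (φ ^ (s₁ * p ^ a)) x = x := by
    intro a
    induction a with
    | zero => intro x hx; simpa using hs₁fix x (by simpa using hx)
    | succ a ih =>
      intro x hx
      set θ := φ ^ (s₁ * p ^ a) with hθ
      have hpx : θ (p • x) = p • x := ih _ (by rw [smul_smul, ← pow_succ]; exact hx)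
      set y := θ x - x with hy
      have hy1 : p • y = 0 := by
        rw [hy, smul_sub, ← map_nsmul, hpx, sub_self]
      have hy2 : θ y = y := ih y (by rw [pow_succ, mul_smul, hy1, smul_zero])
      have hiter : ∀ j : ℕ, (θ ^ j) x = x + j • y := by
        intro j
        induction j with
        | zero => simp
        | succ j ihj =>
          rw [pow_succ', AddMonoid.End.coe_mul, Function.comp_apply, ihj, map_add, map_nsmul, hy2,
            succ_nsmul, hy]
          abel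
      have : φ ^ (s₁ * p ^ (a + 1)) = θ ^ p := by
        rw [hθ, ← pow_mul, pow_succ, mul_assoc]
      rw [this, hiter, hy1, add_zero]
  refine ⟨C + n * padicValNat p s₁, fun m S hS => ?_⟩
  rcases m with _ | a
  · have : S ⊆ {0} := fun x hx => by simpa using hS x hx
    calc S.card ≤ ({0} : Finset G).card := Finset.card_le_card this
      _ = 1 := Finset.card_singleton 0
      _ ≤ _ := Nat.one_le_pow _ _ hp0
  · have hpos : 0 < s₁ * p ^ a := Nat.mul_pos hs₁ (pow_pos hp0 _)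
    refine (hfix _ hpos S (fun x hx => ⟨hstep2 a x (hS x hx), a + 1, hS x hx⟩)).trans ?_
    apply Nat.pow_le_pow_right hp0
    rw [padicValNat.mul hs₁.ne' (pow_pos hp0 _).ne', padicValNat.prime_pow]
    nlinarith

end Group

end Fermat.Agent.H55.Zeta
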