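import Mathlib

set_option autoImplicit false

namespace Fermat.Agent.H55.Zeta

open Finset

section Ultra

variable {K : Type*} [NormedField K] [IsUltrametricDist K]

theorem norm_eq_of_norm_sub_lt {x y : K} (h : ‖x - y‖ < ‖y‖) : ‖x‖ = ‖y‖ := by
  have h1 : x = y + (x - y) := by ring
  rw [h1, IsUltrametricDist.norm_add_eq_max_of_norm_ne_norm h.ne', max_eq_left h.le]

theorem norm_geom_sum_le_one {γ : K} (hγ : ‖γ‖ ≤ 1) (u : ℕ) : ‖∑ j ∈ range u, γ ^ j‖ ≤ 1 := by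
  apply IsUltrametricDist.norm_sum_le_of_forall_le_of_nonneg zero_le_one
  intro j _
  rw [norm_pow]
  exact pow_le_one₀ (norm_nonneg _) hγ

theorem norm_le_one_of_norm_sub_one_le {γ : K} (hγ : ‖γ - 1‖ ≤ 1) : ‖γ‖ ≤ 1 := by
  have h1 : γ = (γ - 1) + 1 := by ring
  rw [h1]
  refine (IsUltrametricDist.norm_add_le_max _ _).trans ?_
  rw [norm_one]
  exact max_le hγ le_rfl

omit [IsUltrametricDist K] in
theorem norm_pow_sub_one_eq (γ : K) (u : ℕ) :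
    ‖γ ^ u - 1‖ = ‖γ - 1‖ * ‖∑ j ∈ range u, γ ^ j‖ := by
  rw [← norm_mul, mul_comm, geom_sum_mul]

theorem norm_pow_sub_one_le {γ : K} (hγ : ‖γ - 1‖ ≤ 1) (u : ℕ) : ‖γ ^ u - 1‖ ≤ ‖γ - 1‖ := by
  rw [norm_pow_sub_one_eq]
  exact mul_le_of_le_one_right (norm_nonneg _)
    (norm_geom_sum_le_one (norm_le_one_of_norm_sub_one_le hγ) u)

theorem norm_geom_sum_sub_le {γ : K} (hγ : ‖γ - 1‖ ≤ 1) (u : ℕ) :
    ‖(∑ j ∈ range u, γ ^ j) - (u : K)‖ ≤ ‖γ - 1‖ := by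
  have h1 : (∑ j ∈ range u, γ ^ j) - (u : K) = ∑ j ∈ range u, (γ ^ j - 1) := by
    rw [Finset.sum_sub_distrib]
    simp
  rw [h1]
  apply IsUltrametricDist.norm_sum_le_of_forall_le_of_nonneg (norm_nonneg _)
  intro j _
  exact norm_pow_sub_one_le hγ j

/-- (B) -/
theorem norm_pow_sub_one_of_norm_natCast_eq_one {γ : K} (hγ : ‖γ - 1‖ < 1) {u : ℕ}
    (hu : ‖(u : K)‖ = 1) : ‖γ ^ u - 1‖ = ‖γ - 1‖ := by
  rw [norm_pow_sub_one_eq]
  have h1 : ‖∑ j ∈ range u, γ ^ j‖ = ‖(u : K)‖ := by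
    apply norm_eq_of_norm_sub_lt
    rw [hu]
    exact (norm_geom_sum_sub_le hγ.le u).trans_lt hγ
  rw [h1, hu, mul_one]

/-- (C) -/
theorem norm_pow_sub_one_of_lt {γ : K} {p : ℕ} (hp : ‖(p : K)‖ ≤ 1) (hγ : ‖γ - 1‖ < ‖(p : K)‖) :
    ‖γ ^ p - 1‖ = ‖γ - 1‖ * ‖(p : K)‖ := by
  rw [norm_pow_sub_one_eq]
  congr 1
  apply norm_eq_of_norm_sub_lt
  exact (norm_geom_sum_sub_le (hγ.le.trans hp) p).trans_lt hγ

/-- (D) -/
theorem norm_pow_sub_one_le_mul_max {γ : K} (hγ : ‖γ - 1‖ ≤ 1) (p : ℕ) :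
    ‖γ ^ p - 1‖ ≤ ‖γ - 1‖ * max ‖(p : K)‖ ‖γ - 1‖ := by
  rw [norm_pow_sub_one_eq]
  apply mul_le_mul_of_nonneg_left _ (norm_nonneg _)
  have h1 : (∑ j ∈ range p, γ ^ j) = (p : K) + ((∑ j ∈ range p, γ ^ j) - (p : K)) := by ring
  rw [h1]
  refine (IsUltrametricDist.norm_add_le_max _ _).trans ?_
  exact max_le_max le_rfl (norm_geom_sum_sub_le hγ p)

/-- **(Z5b)** -/
theorem exists_le_norm_pow_sub_one {p : ℕ} (hp1 : 1 < p) (hπ0 : (p : K) ≠ 0)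
    (hπ1 : ‖(p : K)‖ < 1)
    (hunit : ∀ u : ℕ, ¬ p ∣ u → ‖(u : K)‖ = 1) (β : K) (hβ : ‖β - 1‖ < 1)
    (hne : ∀ u : ℕ, 0 < u → β ^ u ≠ 1) :
    ∃ c : ℝ, 0 < c ∧ ∀ u : ℕ, 0 < u → c * ‖(u : K)‖ ≤ ‖β ^ u - 1‖ := by
  set π := ‖(p : K)‖ with hπ
  have hπpos : 0 < π := norm_pos_iff.mpr hπ0
  set ρ : ℕ → ℝ := fun a => ‖β ^ p ^ a - 1‖ with hρ
  have hρpos : ∀ a, 0 < ρ a := fun a =>
    norm_pos_iff.mpr (sub_ne_zero.mpr (hne _ (pow_pos (by omega) a)))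
  have hρle : ∀ a, ρ a ≤ ‖β - 1‖ := fun a => norm_pow_sub_one_le hβ.le _
  have hρlt : ∀ a, ρ a < 1 := fun a => (hρle a).trans_lt hβ
  have hρsucc : ∀ a, ρ (a + 1) ≤ ρ a * max π (ρ a) := by
    intro a
    have := norm_pow_sub_one_le_mul_max (γ := β ^ p ^ a) (hρlt a).le p
    rwa [← pow_mul, ← pow_succ] at this
  have hρmono : ∀ a, ρ (a + 1) ≤ ρ a := fun a =>
    (hρsucc a).trans (mul_le_of_le_one_right (hρpos a).le (max_le hπ1.le (hρlt a).le))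
  have hρanti : ∀ a b, a ≤ b → ρ b ≤ ρ a := fun a b hab =>
    antitone_nat_of_succ_le hρmono hab
  -- reach the stable range
  obtain ⟨a₁, ha₁⟩ : ∃ a₁, ρ a₁ < π := by
    by_contra hcon
    simp only [not_exists, not_lt] at hcon
    have hpow : ∀ a, ρ a ≤ ρ 0 ^ (a + 1) := by
      intro a
      induction a with
      | zero => simp
      | succ a ih =>
        calc ρ (a + 1) ≤ ρ a * max π (ρ a) := hρsucc a
          _ = ρ a * ρ a := by rw [max_eq_right (hcon a)]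
          _ ≤ ρ 0 ^ (a + 1) * ρ 0 :=
            mul_le_mul ih (hρanti 0 a (Nat.zero_le a)) (hρpos a).le (pow_nonneg (hρpos 0).le _)
          _ = ρ 0 ^ (a + 1 + 1) := (pow_succ _ _).symm
    obtain ⟨n, hn⟩ := exists_pow_lt_of_lt_one hπpos (hρlt 0)
    have h1 := hpow n
    have h2 : ρ 0 ^ (n + 1) ≤ ρ 0 ^ n := by
      rw [pow_succ]
      exact mul_le_of_le_one_right (pow_nonneg (hρpos 0).le _) (hρlt 0).le
    have h3 := hcon n
    linarith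
  have hstable : ∀ j, ρ (a₁ + j) = ρ a₁ * π ^ j := by
    intro j
    induction j with
    | zero => simp
    | succ j ih =>
      have hlt : ρ (a₁ + j) < π := (hρanti a₁ (a₁ + j) (Nat.le_add_right _ _)).trans_lt ha₁
      have := norm_pow_sub_one_of_lt (γ := β ^ p ^ (a₁ + j)) (p := p) hπ1.le hlt
      rw [← pow_mul, ← pow_succ] at this
      rw [← add_assoc]
      show ‖β ^ p ^ (a₁ + j + 1) - 1‖ = _
      rw [this]
      show ρ (a₁ + j) * π = _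
      rw [ih, pow_succ, mul_assoc]
  have hlow : ∀ a, ρ a₁ * π ^ a ≤ ρ a := by
    intro a
    rcases le_total a₁ a with h | h
    · obtain ⟨j, rfl⟩ := Nat.exists_eq_add_of_le h
      rw [hstable]
      apply mul_le_mul_of_nonneg_left _ (hρpos a₁).le
      exact pow_le_pow_of_le_one hπpos.le hπ1.le (Nat.le_add_left _ _)
    · calc ρ a₁ * π ^ a ≤ ρ a₁ * 1 :=
            mul_le_mul_of_nonneg_left (pow_le_one₀ hπpos.le hπ1.le) (hρpos a₁).le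
        _ = ρ a₁ := mul_one _
        _ ≤ ρ a := hρanti a a₁ h
  refine ⟨ρ a₁, hρpos a₁, fun u hu => ?_⟩
  obtain ⟨a, u', hpu', rfl⟩ := Nat.exists_eq_pow_mul_and_not_dvd hu.ne' p hp1.ne'
  have h1 : ‖((p ^ a * u' : ℕ) : K)‖ = π ^ a := by
    rw [Nat.cast_mul, norm_mul, hunit u' hpu', mul_one, Nat.cast_pow, norm_pow]
  rw [h1, pow_mul, norm_pow_sub_one_of_norm_natCast_eq_one (hρlt a) (hunit u' hpu')]
  exact hlow a


/-- **(Z5a)** -/
theorem exists_le_norm_one_sub_pow {p : ℕ} (hp1 : 1 < p) (hπ0 : (p : K) ≠ 0)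
    (hπ1 : ‖(p : K)‖ < 1)
    (hunit : ∀ u : ℕ, ¬ p ∣ u → ‖(u : K)‖ = 1) (α : K) (hα : ‖α‖ ≤ 1)
    (hne : ∀ r : ℕ, 0 < r → α ^ r ≠ 1) :
    ∃ c : ℝ, 0 < c ∧ ∀ r : ℕ, 0 < r → c * ‖(r : K)‖ ≤ ‖1 - α ^ r‖ := by
  by_cases h : ∃ r : ℕ, 0 < r ∧ ‖α ^ r - 1‖ < 1
  · classical
    set f := Nat.find h with hf
    obtain ⟨hfpos, hflt⟩ := Nat.find_spec h
    have hmin : ∀ s : ℕ, 0 < s → s < f → 1 ≤ ‖α ^ s - 1‖ := by
      intro s hs hsf
      by_contra hcon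
      exact Nat.find_min h hsf ⟨hs, not_le.mp hcon⟩
    obtain ⟨c₁, hc₁, hc₁b⟩ := exists_le_norm_pow_sub_one hp1 hπ0 hπ1 hunit (α ^ f) hflt
      (fun u hu => by rw [← pow_mul]; exact hne _ (Nat.mul_pos hfpos hu))
    refine ⟨min c₁ 1, lt_min hc₁ one_pos, fun r hr => ?_⟩
    rw [norm_sub_rev]
    have hr1 : ‖(r : K)‖ ≤ 1 := IsUltrametricDist.norm_natCast_le_one K r
    by_cases hfr : f ∣ r
    · obtain ⟨u, rfl⟩ := hfr
      have hu : 0 < u := Nat.pos_of_ne_zero (by rintro rfl; simp at hr)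
      calc min c₁ 1 * ‖((f * u : ℕ) : K)‖ ≤ c₁ * ‖((f * u : ℕ) : K)‖ :=
            mul_le_mul_of_nonneg_right (min_le_left _ _) (norm_nonneg _)
        _ = c₁ * (‖(f : K)‖ * ‖(u : K)‖) := by rw [Nat.cast_mul, norm_mul]
        _ ≤ c₁ * (1 * ‖(u : K)‖) := by
            apply mul_le_mul_of_nonneg_left _ hc₁.le
            exact mul_le_mul_of_nonneg_right (IsUltrametricDist.norm_natCast_le_one K f)
              (norm_nonneg _)
        _ = c₁ * ‖(u : K)‖ := by rw [one_mul]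
        _ ≤ ‖(α ^ f) ^ u - 1‖ := hc₁b u hu
        _ = ‖α ^ (f * u) - 1‖ := by rw [pow_mul]
    · have hs : 0 < r % f := Nat.pos_of_ne_zero (fun h0 => hfr (Nat.dvd_of_mod_eq_zero h0))
      have hsf : r % f < f := Nat.mod_lt _ hfpos
      have hdecomp : α ^ r - 1 = α ^ (r % f) * ((α ^ f) ^ (r / f) - 1) + (α ^ (r % f) - 1) := by
        have : α ^ r = α ^ (r % f) * (α ^ f) ^ (r / f) := by
          rw [← pow_mul, ← pow_add, Nat.mod_add_div]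
        rw [this]; ring
      have hA : ‖α ^ (r % f) * ((α ^ f) ^ (r / f) - 1)‖ < 1 := by
        rw [norm_mul, norm_pow]
        calc ‖α‖ ^ (r % f) * ‖(α ^ f) ^ (r / f) - 1‖ ≤ 1 * ‖(α ^ f) ^ (r / f) - 1‖ :=
              mul_le_mul_of_nonneg_right (pow_le_one₀ (norm_nonneg _) hα) (norm_nonneg _)
          _ = ‖(α ^ f) ^ (r / f) - 1‖ := one_mul _
          _ ≤ ‖α ^ f - 1‖ := norm_pow_sub_one_le hflt.le _
          _ < 1 := hflt
      have hB : 1 ≤ ‖α ^ (r % f) - 1‖ := hmin _ hs hsf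
      have hge : 1 ≤ ‖α ^ r - 1‖ := by
        rw [hdecomp, IsUltrametricDist.norm_add_eq_max_of_norm_ne_norm (hA.trans_le hB).ne]
        exact hB.trans (le_max_right _ _)
      calc min c₁ 1 * ‖(r : K)‖ ≤ 1 * 1 :=
            mul_le_mul (min_le_right _ _) hr1 (norm_nonneg _) zero_le_one
        _ = 1 := one_mul 1
        _ ≤ _ := hge
  · simp only [not_exists, not_and, not_lt] at h
    refine ⟨1, one_pos, fun r hr => ?_⟩
    rw [one_mul, norm_sub_rev]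
    exact (IsUltrametricDist.norm_natCast_le_one K r).trans (h r hr)

/-- Product version of (Z5a). -/
theorem exists_le_norm_prod_one_sub_pow {p : ℕ} (hp1 : 1 < p) (hπ0 : (p : K) ≠ 0)
    (hπ1 : ‖(p : K)‖ < 1)
    (hunit : ∀ u : ℕ, ¬ p ∣ u → ‖(u : K)‖ = 1) (A : Multiset K)
    (hα : ∀ α ∈ A, ‖α‖ ≤ 1)
    (hne : ∀ r : ℕ, 0 < r → ∀ α ∈ A, α ^ r ≠ 1) :
    ∃ c : ℝ, 0 < c ∧ ∀ r : ℕ, 0 < r →
      c * ‖(r : K)‖ ^ A.card ≤ ‖(A.map fun α => 1 - α ^ r).prod‖ := by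
  induction A using Multiset.induction_on with
  | empty => exact ⟨1, one_pos, fun r _ => by simp⟩
  | cons a A ih =>
    obtain ⟨c₁, hc₁, hc₁b⟩ := ih (fun j hj => hα j (Multiset.mem_cons_of_mem hj))
      (fun r hr j hj => hne r hr j (Multiset.mem_cons_of_mem hj))
    obtain ⟨c₂, hc₂, hc₂b⟩ := exists_le_norm_one_sub_pow hp1 hπ0 hπ1 hunit a
      (hα a (Multiset.mem_cons_self a A)) (fun r hr => hne r hr a (Multiset.mem_cons_self a A))
    refine ⟨c₂ * c₁, mul_pos hc₂ hc₁, fun r hr => ?_⟩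
    rw [Multiset.map_cons, Multiset.prod_cons, Multiset.card_cons, norm_mul, pow_succ]
    calc c₂ * c₁ * (‖(r : K)‖ ^ A.card * ‖(r : K)‖)
        = (c₂ * ‖(r : K)‖) * (c₁ * ‖(r : K)‖ ^ A.card) := by ring
      _ ≤ ‖1 - a ^ r‖ * ‖(A.map fun α => 1 - α ^ r).prod‖ :=
        mul_le_mul (hc₂b r hr) (hc₁b r hr)
          (mul_nonneg hc₁.le (pow_nonneg (norm_nonneg _) _)) (norm_nonneg _)

end Ultra


section Padic

variable (p : ℕ) [hp : Fact p.Prime]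

theorem norm_natCast_padicAlgCl (m : ℕ) (hm : m ≠ 0) :
    ‖(m : PadicAlgCl p)‖ = ((p : ℝ) ^ padicValNat p m)⁻¹ := by
  have h1 : (m : PadicAlgCl p) = ((m : ℚ_[p]) : PadicAlgCl p) := (map_natCast _ m).symm
  rw [h1, PadicAlgCl.norm_extends, Padic.norm_eq_zpow_neg_valuation (Nat.cast_ne_zero.mpr hm),
    Padic.valuation_natCast, zpow_neg, zpow_natCast]

/-- **(Z5), integer form.**  If `h r = ∏ i, (1 - α i ^ r)` for `p`-adically integral `α i`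
and `h r ≠ 0` for all `r ≥ 1`, then `v_p (h r) ≤ C + n * v_p r`. -/
theorem exists_padicValNat_le_of_eq_prod (A : Multiset (PadicAlgCl p))
    (hα : ∀ α ∈ A, ‖α‖ ≤ 1) (h : ℕ → ℕ) (hpos : ∀ r : ℕ, 0 < r → h r ≠ 0)
    (hh : ∀ r : ℕ, 0 < r → ((h r : ℕ) : PadicAlgCl p) = (A.map fun α => 1 - α ^ r).prod) :
    ∃ C : ℕ, ∀ r : ℕ, 0 < r → padicValNat p (h r) ≤ C + A.card * padicValNat p r := by
  set n := A.card with hn
  have hp1 : 1 < p := hp.out.one_lt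
  have hP1 : (1 : ℝ) < p := by exact_mod_cast hp1
  have hP0 : (0 : ℝ) < p := by linarith
  have hπ0 : (p : PadicAlgCl p) ≠ 0 := Nat.cast_ne_zero.mpr hp.out.ne_zero
  have hπ1 : ‖(p : PadicAlgCl p)‖ < 1 := by
    rw [norm_natCast_padicAlgCl p p hp.out.ne_zero, padicValNat_self, pow_one]
    exact inv_lt_one_of_one_lt₀ hP1
  have hunit : ∀ u : ℕ, ¬ p ∣ u → ‖(u : PadicAlgCl p)‖ = 1 := by
    intro u hu
    have hu0 : u ≠ 0 := by rintro rfl; exact hu (dvd_zero p)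
    rw [norm_natCast_padicAlgCl p u hu0, padicValNat.eq_zero_of_not_dvd hu, pow_zero, inv_one]
  have hne : ∀ r : ℕ, 0 < r → ∀ α ∈ A, α ^ r ≠ 1 := by
    intro r hr α hα' hcon
    have h0 : ((h r : ℕ) : PadicAlgCl p) = 0 := by
      rw [hh r hr]
      apply Multiset.prod_eq_zero
      exact Multiset.mem_map.mpr ⟨α, hα', by rw [hcon, sub_self]⟩
    exact hpos r hr (Nat.cast_eq_zero.mp h0)
  obtain ⟨c, hc, hcb⟩ := exists_le_norm_prod_one_sub_pow hp1 hπ0 hπ1 hunit A hα hne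
  obtain ⟨C, hC⟩ := pow_unbounded_of_one_lt c⁻¹ hP1
  refine ⟨C, fun r hr => ?_⟩
  have h1 := hcb r hr
  rw [← hh r hr, norm_natCast_padicAlgCl p r hr.ne', norm_natCast_padicAlgCl p _ (hpos r hr),
    inv_pow, ← pow_mul] at h1
  -- `c * (p ^ (v r * n))⁻¹ ≤ (p ^ v (h r))⁻¹`
  have hA : (0 : ℝ) < (p : ℝ) ^ (padicValNat p r * n) := pow_pos hP0 _
  have hB : (0 : ℝ) < (p : ℝ) ^ padicValNat p (h r) := pow_pos hP0 _
  have h2 : (p : ℝ) ^ padicValNat p (h r) ≤ c⁻¹ * (p : ℝ) ^ (padicValNat p r * n) := by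
    have h3 : c * (p : ℝ) ^ padicValNat p (h r) ≤ (p : ℝ) ^ (padicValNat p r * n) := by
      have := mul_le_mul_of_nonneg_right h1 (mul_pos hA hB).le
      have e1 : c * ((p : ℝ) ^ (padicValNat p r * n))⁻¹ *
          ((p : ℝ) ^ (padicValNat p r * n) * (p : ℝ) ^ padicValNat p (h r)) =
          c * (p : ℝ) ^ padicValNat p (h r) := by
        field_simp
      have e2 : ((p : ℝ) ^ padicValNat p (h r))⁻¹ *
          ((p : ℝ) ^ (padicValNat p r * n) * (p : ℝ) ^ padicValNat p (h r)) =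
          (p : ℝ) ^ (padicValNat p r * n) := by
        field_simp
      rwa [e1, e2] at this
    rw [inv_mul_eq_div, le_div_iff₀ hc, mul_comm]
    exact h3
  have h4 : (p : ℝ) ^ padicValNat p (h r) ≤ (p : ℝ) ^ (C + n * padicValNat p r) := by
    calc (p : ℝ) ^ padicValNat p (h r) ≤ c⁻¹ * (p : ℝ) ^ (padicValNat p r * n) := h2
      _ ≤ (p : ℝ) ^ C * (p : ℝ) ^ (padicValNat p r * n) :=
        mul_le_mul_of_nonneg_right hC.le hA.le
      _ = (p : ℝ) ^ (C + n * padicValNat p r) := by rw [← pow_add, mul_comm n]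
  exact (pow_le_pow_iff_right₀ hP1).mp h4

end Padic

end Fermat.Agent.H55.Zeta
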