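import Fermat.Agent.H55.Zeta.TMBAbstract
import Fermat.Agent.H55.Zeta.TMBModular
import Fermat.Agent.H46.FrobDescent
import Fermat.Agent.H61.SS.EulerRec
import Fermat.Agent.H86.NonSpecial

/-!
# P-SS / TMB (helper55): the characteristic-`q` Tate-module bound, unconditional on the
Riemann-Roch hypothesis `RRHyp` only

* `tmbAbstract : TMBAbstractStatement` — for a function field `F / k` over an algebraically
  closed field `k` algebraic over `𝔽_q` with a Frobenius structure and `RRHyp k F`:
  `#Pic⁰(F)[p^n] ≤ C · p^(2 g n)` for every prime `p` (including `p = q`).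
* `tmb : TMBStatement` — the same for `F_k = k(j(q^d) : d ∣ N)`, `k` the residue field of a
  place of `ℚ̄` over `q` (no condition on `gcd(q, N)`).

Inputs: `frobDescent` (helper46), `eulerRecurrence` (helper61), `nonSpecial` (helper86).
-/

set_option autoImplicit false

namespace Fermat.Agent.H55.Zeta

/-- **TMB, abstract form** (unconditional). -/
theorem tmbAbstract : TMBAbstractStatement :=
  tmbAbstract_of Fermat.Agent.H46.frobDescent Fermat.Agent.H61.eulerRecurrence
    Fermat.Agent.H86.nonSpecial

/-- **TMB for the modular function fields in characteristic `q`** (unconditional on `RRHyp`). -/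
theorem tmb : TMBStatement :=
  tmb_of_abstract tmbAbstract

end Fermat.Agent.H55.Zeta
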