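import Fermat.Agent.H55.Zeta.ZetaBound
import Fermat.Agent.H55.Zeta.GroupLemma

/-!
# P-SS / TMB: from the counting data to the torsion bound (Mathlib only)
-/

set_option autoImplicit false

namespace Fermat.Agent.H55.Zeta

section

variable {G : Type*} [AddCommGroup G]

/-- The subgroup of `p`-primary elements fixed by `φ ^ r`. -/
def fixPrim (p : ℕ) (φ : AddMonoid.End G) (r : ℕ) : AddSubgroup G where
  carrier := {x | (φ ^ r) x = x ∧ ∃ j : ℕ, p ^ j • x = 0}
  zero_mem' := ⟨map_zero _, 0, smul_zero _⟩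
  add_mem' := by
    rintro x y ⟨hx, i, hi⟩ ⟨hy, j, hj⟩
    refine ⟨by rw [map_add, hx, hy], i + j, ?_⟩
    have h1 : p ^ (i + j) • x = 0 := by rw [pow_add, mul_comm, mul_smul, hi, smul_zero]
    have h2 : p ^ (i + j) • y = 0 := by rw [pow_add, mul_smul, hj, smul_zero]
    rw [smul_add, h1, h2, add_zero]
  neg_mem' := by
    rintro x ⟨hx, i, hi⟩
    exact ⟨by rw [map_neg, hx], i, by rw [smul_neg, hi, neg_zero]⟩

/-- A finite additive group all of whose elements are killed by a power of `p` has `p`-power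
order. -/
theorem exists_card_eq_pow_of_primary (p : ℕ) [Fact p.Prime] (H : Type*) [AddCommGroup H]
    [Finite H] (hH : ∀ x : H, ∃ j : ℕ, p ^ j • x = 0) : ∃ k : ℕ, Nat.card H = p ^ k := by
  have h1 : IsPGroup p (Multiplicative H) := by
    intro x
    obtain ⟨j, hj⟩ := hH (Multiplicative.toAdd x)
    exact ⟨j, by
      apply Multiplicative.toAdd.injective
      rw [toAdd_pow, hj]
      rfl⟩
  obtain ⟨k, hk⟩ := (IsPGroup.iff_card (p := p) (G := Multiplicative H)).mp h1
  exact ⟨k, by rw [← hk]; rfl⟩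

/-- **Abstract TMB** (Mathlib only): torsion bound from the zeta counting data. -/
theorem card_torsion_le_of_zeta (p : ℕ) [Fact p.Prime] (φ : AddMonoid.End G) (q g : ℕ)
    (hq : 2 ≤ q) (h N : ℕ → ℕ) (a : ℕ → ℕ → ℕ)
    (A0 : ∀ r : ℕ, 0 < r → a r 0 = 1)
    (A1 : ∀ r : ℕ, 0 < r → ∀ n : ℕ, (n + 1) * a r (n + 1) =
      ∑ ij ∈ Finset.HasAntidiagonal.antidiagonal n, a r ij.1 * N (r * (ij.2 + 1)))
    (A2 : ∀ r : ℕ, 0 < r → ∀ n : ℕ, 2 * g ≤ n + 1 →
      a r n * q ^ r + h r = h r * (q ^ r) ^ (n + 1 - g) + a r n)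
    (horb : ∀ x : G, p • x = 0 → ∃ r : ℕ, 0 < r ∧ (φ ^ r) x = x)
    (hfix : ∀ r : ℕ, 0 < r → {x : G | (φ ^ r) x = x}.Finite ∧
      {x : G | (φ ^ r) x = x}.ncard = h r) :
    ∃ C' : ℕ, ∀ m : ℕ, ∀ S : Finset G, (∀ x ∈ S, p ^ m • x = 0) →
      S.card ≤ p ^ (C' + 2 * g * m) := by
  have hp0 : 0 < p := (Fact.out : p.Prime).pos
  have hpos : ∀ r : ℕ, 0 < r → h r ≠ 0 := by
    intro r hr h0
    have := (hfix r hr).2
    rw [h0, Set.ncard_eq_zero (hfix r hr).1] at this
    have h1 : (0 : G) ∈ {x : G | (φ ^ r) x = x} := map_zero _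
    rw [this] at h1
    exact h1
  obtain ⟨C, hC⟩ := zeta_padicValNat_bound p q g hq h N a A0 A1 A2 hpos
  apply card_torsion_le_of_fixed_le p φ (2 * g) C horb
  intro r hr S hS
  have hsub : (fixPrim p φ r : Set G) ⊆ {x : G | (φ ^ r) x = x} := fun x hx => hx.1
  have hfin : (fixPrim p φ r : Set G).Finite := (hfix r hr).1.subset hsub
  have : Finite (fixPrim p φ r) := hfin
  obtain ⟨k, hk⟩ := exists_card_eq_pow_of_primary p (fixPrim p φ r) (fun x => by
    obtain ⟨j, hj⟩ := x.2.2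
    exact ⟨j, Subtype.ext (by simpa using hj)⟩)
  -- `p ^ k` divides `h r`
  let Fx : AddSubgroup G :=
    { carrier := {x : G | (φ ^ r) x = x}
      zero_mem' := map_zero _
      add_mem' := fun {x y} hx hy => by
        show (φ ^ r) (x + y) = x + y
        rw [map_add, hx, hy]
      neg_mem' := fun {x} hx => by
        show (φ ^ r) (-x) = -x
        rw [map_neg, hx] }
  have : Finite Fx := (hfix r hr).1
  have hcardFx : Nat.card Fx = h r := by
    rw [← (hfix r hr).2]
    exact Nat.card_coe_set_eq _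
  have hle : fixPrim p φ r ≤ Fx := hsub
  have hdvd : Nat.card (fixPrim p φ r) ∣ Nat.card Fx := AddSubgroup.card_dvd_of_le hle
  rw [hk, hcardFx] at hdvd
  have hkle : k ≤ padicValNat p (h r) := (padicValNat_dvd_iff_le (hpos r hr)).mp hdvd
  have hScard : S.card ≤ Nat.card (fixPrim p φ r) := by
    have hSsub : (S : Set G) ⊆ (fixPrim p φ r : Set G) := fun x hx => hS x hx
    calc S.card = (S : Set G).ncard := (Set.ncard_coe_finset S).symm
      _ ≤ (fixPrim p φ r : Set G).ncard := Set.ncard_le_ncard hSsub hfin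
      _ = Nat.card (fixPrim p φ r) := (Nat.card_coe_set_eq _).symm
  calc S.card ≤ Nat.card (fixPrim p φ r) := hScard
    _ = p ^ k := hk
    _ ≤ p ^ (C + 2 * g * padicValNat p r) :=
      Nat.pow_le_pow_right hp0 (hkle.trans (hC r hr))

end

end Fermat.Agent.H55.Zeta
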