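import Fermat.Agent.H55.Zeta.FrobCount
import Fermat.Agent.H55.Zeta.ZetaGroup

set_option autoImplicit false
set_option linter.unusedSectionVars false
set_option linter.style.haveILetI false

noncomputable section

open AlgebraicCurve

namespace Fermat.Agent.H55.Zeta

section Assembly

variable {k F : Type} [Field k] [Field F] [Algebra k F]

theorem mem_invEff_iff (hdeg : ∀ v : Place k F, v.deg = 1) (σ : baseAut k F) (n : ℕ)
    (D : Divisor k F) :
    D ∈ invEff (MulAction.toPerm σ : Equiv.Perm (Place k F)) n ↔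
      0 ≤ D ∧ divAct σ D = D ∧ Divisor.degree D = (n : ℤ) := by
  rw [invEff, Set.mem_ofPred_eq, divAct_eq_self_iff, Fermat.Agent.H58.rr_degree_eq_sum_of_deg_one hdeg]
  rfl

theorem invEff_zero {X : Type*} (σ : Equiv.Perm X) : invEff σ 0 = {0} := by
  ext D
  constructor
  · rintro ⟨h0, -, hsum⟩
    rw [Set.mem_singleton_iff]
    have hnn : ∀ x ∈ D.support, 0 ≤ D x := fun x _ => by
      simpa using Finsupp.le_def.mp h0 x
    rw [Finsupp.sum, Nat.cast_zero] at hsum
    have h1 := (Finset.sum_eq_zero_iff_of_nonneg hnn).mp hsum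
    ext x
    by_cases hx : x ∈ D.support
    · simpa using h1 x hx
    · simpa using Finsupp.notMem_support_iff.mp hx
  · rintro rfl
    exact ⟨le_rfl, fun _ => rfl, by simp⟩

theorem degree_eq_zero_of_mem_principal [HasPrincipalDivisors k F] {D : Divisor k F}
    (hD : D ∈ Divisor.principal (K := k) (F := F)) : Divisor.degree D = 0 := by
  obtain ⟨f, hf, hfD⟩ := hD
  rw [eq_divOf_of_forall hf hfD]
  exact degree_divOf f

/-- `D - (deg D) v₀` as a divisor of degree zero. -/
def shift (hdeg : ∀ v : Place k F, v.deg = 1) (v₀ : Place k F) (D : Divisor k F) :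
    Divisor.degZero (K := k) (F := F) :=
  ⟨D - Finsupp.single v₀ (Divisor.degree D), by
    rw [Divisor.mem_degZero, map_sub, Divisor.degree_single, hdeg, Nat.cast_one, mul_one,
      sub_self]⟩

@[simp] theorem coe_shift (hdeg : ∀ v : Place k F, v.deg = 1) (v₀ : Place k F) (D : Divisor k F) :
    ((shift hdeg v₀ D : Divisor.degZero (K := k) (F := F)) : Divisor k F) =
      D - Finsupp.single v₀ (Divisor.degree D) := rfl

/-- The class of `D - (deg D) v₀` in `Pic⁰`. -/
def cls (hdeg : ∀ v : Place k F, v.deg = 1) (v₀ : Place k F) (D : Divisor k F) : Pic0 k F :=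
  Pic0.mk (shift hdeg v₀ D)

theorem cls_eq_cls_iff (hdeg : ∀ v : Place k F, v.deg = 1) (v₀ : Place k F) {D D' : Divisor k F}
    (h : Divisor.degree D = Divisor.degree D') :
    cls hdeg v₀ D = cls hdeg v₀ D' ↔ D - D' ∈ Divisor.principal (K := k) (F := F) := by
  rw [cls, cls, Pic0.mk, Pic0.mk, QuotientAddGroup.eq, AddSubgroup.mem_addSubgroupOf]
  have : ((-(shift hdeg v₀ D) + shift hdeg v₀ D' : Divisor.degZero (K := k) (F := F)) :
        Divisor k F) = -(D - D') := by
    show -(D - Finsupp.single v₀ (Divisor.degree D)) +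
      (D' - Finsupp.single v₀ (Divisor.degree D')) = -(D - D')
    rw [h]
    abel
  rw [this, neg_mem_iff]

theorem cls_coe (hdeg : ∀ v : Place k F, v.deg = 1) (v₀ : Place k F)
    (D : Divisor.degZero (K := k) (F := F)) : cls hdeg v₀ D.1 = Pic0.mk D := by
  rw [cls]
  congr 1
  apply Subtype.ext
  have : Divisor.degree D.1 = 0 := D.2
  rw [coe_shift, this, Finsupp.single_zero, sub_zero]

theorem picAct_cls (hdeg : ∀ v : Place k F, v.deg = 1) (σ : baseAut k F) {v₀ : Place k F}
    (hv₀ : σ • v₀ = v₀) (D : Divisor k F) :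
    picAct hdeg σ (cls hdeg v₀ D) = cls hdeg v₀ (divAct σ D) := by
  rw [cls, picAct_mk, cls]
  congr 1
  apply Subtype.ext
  rw [coe_degZeroAct, coe_shift, coe_shift, map_sub, divAct_single, hv₀, degree_divAct hdeg]


variable [IsAlgClosed k] {q : ℕ} [hq : Fact q.Prime] [CharP k q]

/-- The fibre of `cls` over a fixed class is the set of invariant effective divisors in the
class of an invariant divisor of degree `n`. -/
theorem exists_fibre_eq_invClass [HasPrincipalDivisors k F] (hdesc : FrobDescentStatement)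
    (hRR : Fermat.Agent.H58.RRHyp k F) (S : FrobStructure k F q)
    (halg : ∀ c : k, ∃ s : ℕ, 0 < s ∧ c ^ q ^ s = c) {r : ℕ} (hr : 0 < r) (n : ℕ)
    (x : Pic0 k F) (hx : picAct hRR.deg_one (S.Φ ^ r) x = x) :
    ∃ E : Divisor k F, divAct (S.Φ ^ r) E = E ∧ Divisor.degree E = (n : ℤ) ∧
      ∀ D : Divisor k F, (D ∈ invEff (MulAction.toPerm (S.Φ ^ r) : Equiv.Perm (Place k F)) n ∧
        cls hRR.deg_one S.v₀ D = x) ↔ D ∈ invClass (S.Φ ^ r) E := by
  have hdeg := hRR.deg_one
  obtain ⟨D₀, rfl⟩ := Pic0.mk_surjective x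
  have h1 : divAct (S.Φ ^ r) D₀.1 - D₀.1 ∈ Divisor.principal (K := k) (F := F) := by
    rw [picAct_mk, Pic0.mk, Pic0.mk, QuotientAddGroup.eq, AddSubgroup.mem_addSubgroupOf] at hx
    have h2 : ((-(degZeroAct hdeg (S.Φ ^ r) D₀) + D₀ : Divisor.degZero (K := k) (F := F)) :
        Divisor k F) = -(divAct (S.Φ ^ r) D₀.1 - D₀.1) := by
      show -(divAct (S.Φ ^ r) D₀.1) + D₀.1 = _
      abel
    rw [h2, neg_mem_iff] at hx
    exact hx
  obtain ⟨Dx, hDx, hDxσ⟩ := exists_invariant_representative hdesc hRR S halg hr D₀.1 h1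
  have hdegDx : Divisor.degree Dx = 0 := by
    have := degree_eq_zero_of_mem_principal hDx
    rw [map_sub] at this
    have h0 : Divisor.degree D₀.1 = 0 := D₀.2
    rw [h0, sub_zero] at this
    exact this
  set E : Divisor k F := Dx + Finsupp.single S.v₀ (n : ℤ) with hE
  have hEσ : divAct (S.Φ ^ r) E = E := by
    rw [hE, map_add, hDxσ, divAct_single, S.Φ_pow_smul_v₀]
  have hEdeg : Divisor.degree E = (n : ℤ) := by
    rw [hE, map_add, hdegDx, Divisor.degree_single, hdeg, Nat.cast_one, mul_one, zero_add]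
  have hEcls : cls hdeg S.v₀ E = Pic0.mk D₀ := by
    rw [cls, Pic0.mk, Pic0.mk, QuotientAddGroup.eq, AddSubgroup.mem_addSubgroupOf]
    have h2 : ((-(shift hdeg S.v₀ E) + D₀ : Divisor.degZero (K := k) (F := F)) :
        Divisor k F) = -(Dx - D₀.1) := by
      show -(E - Finsupp.single S.v₀ (Divisor.degree E)) + D₀.1 = _
      rw [hEdeg, hE]
      abel
    rw [h2, neg_mem_iff]
    exact hDx
  refine ⟨E, hEσ, hEdeg, fun D => ?_⟩
  rw [mem_invEff_iff hdeg]
  constructor
  · rintro ⟨⟨h0, hσ, hd⟩, hc⟩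
    refine ⟨h0, hσ, ?_⟩
    rw [← hEcls, cls_eq_cls_iff hdeg S.v₀ (hd.trans hEdeg.symm)] at hc
    exact hc
  · rintro ⟨h0, hσ, hp⟩
    have hd : Divisor.degree D = (n : ℤ) := by
      have := degree_eq_zero_of_mem_principal hp
      rw [map_sub, hEdeg] at this
      linarith
    refine ⟨⟨h0, hσ, hd⟩, ?_⟩
    rw [← hEcls, cls_eq_cls_iff hdeg S.v₀ (hd.trans hEdeg.symm)]
    exact hp

/-- **(A2)** together with the finiteness of the set of fixed classes. -/
theorem class_count [HasPrincipalDivisors k F] (hdesc : FrobDescentStatement)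
    (hns : NonSpecialStatement)
    (hRR : Fermat.Agent.H58.RRHyp k F) (S : FrobStructure k F q)
    (halg : ∀ c : k, ∃ s : ℕ, 0 < s ∧ c ^ q ^ s = c) {r : ℕ} (hr : 0 < r) (n : ℕ)
    (hn : 2 * genusFF k F ≤ n + 1)
    (hA : (invEff (MulAction.toPerm (S.Φ ^ r) : Equiv.Perm (Place k F)) n).Finite) :
    {x : Pic0 k F | picAct hRR.deg_one (S.Φ ^ r) x = x}.Finite ∧
      (invEff (MulAction.toPerm (S.Φ ^ r) : Equiv.Perm (Place k F)) n).ncard * q ^ r +
          {x : Pic0 k F | picAct hRR.deg_one (S.Φ ^ r) x = x}.ncard =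
        {x : Pic0 k F | picAct hRR.deg_one (S.Φ ^ r) x = x}.ncard *
          (q ^ r) ^ (n + 1 - genusFF k F) +
          (invEff (MulAction.toPerm (S.Φ ^ r) : Equiv.Perm (Place k F)) n).ncard := by
  classical
  have hdeg := hRR.deg_one
  have hQ : 1 < q ^ r := Nat.one_lt_pow hr.ne' hq.out.one_lt
  set A := invEff (MulAction.toPerm (S.Φ ^ r) : Equiv.Perm (Place k F)) n with hAdef
  set Cl : Set (Pic0 k F) := {x : Pic0 k F | picAct hRR.deg_one (S.Φ ^ r) x = x} with hCl
  set P : ℕ := (q ^ r) ^ (n + 1 - genusFF k F) with hP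
  have hPQ : q ^ r ≤ P := by
    rw [hP]
    calc q ^ r = (q ^ r) ^ 1 := (pow_one _).symm
      _ ≤ (q ^ r) ^ (n + 1 - genusFF k F) := Nat.pow_le_pow_right (by omega) (by omega)
  -- fibres
  have hfib : ∀ x ∈ Cl, {D | D ∈ A ∧ cls hdeg S.v₀ D = x}.Finite ∧
      {D | D ∈ A ∧ cls hdeg S.v₀ D = x}.ncard * (q ^ r - 1) + 1 = P := by
    intro x hx
    obtain ⟨E, hEσ, hEdeg, hE⟩ := exists_fibre_eq_invClass hdesc hRR S halg hr n x hx
    have hset : {D | D ∈ A ∧ cls hdeg S.v₀ D = x} = invClass (S.Φ ^ r) E :=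
      Set.ext fun D => hE D
    have hl : Module.finrank k (riemannRochSpace (K := k) E) = n + 1 - genusFF k F := by
      have := hns k F hRR E (by rw [hEdeg]; omega)
      rw [hEdeg] at this
      omega
    have := ncard_invClass hdesc hRR S halg hr E hEσ
    rw [hl] at this
    rw [hset]
    exact this
  have hfibne : ∀ x ∈ Cl, ∃ D ∈ A, cls hdeg S.v₀ D = x := by
    intro x hx
    obtain ⟨hfin, hc⟩ := hfib x hx
    have hpos : 0 < {D | D ∈ A ∧ cls hdeg S.v₀ D = x}.ncard := by
      by_contra h0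
      have : {D | D ∈ A ∧ cls hdeg S.v₀ D = x}.ncard = 0 := by omega
      rw [this] at hc
      omega
    obtain ⟨D, hD⟩ := (Set.ncard_pos hfin).mp hpos
    exact ⟨D, hD.1, hD.2⟩
  have hClfin : Cl.Finite := by
    refine (hA.image (cls hdeg S.v₀)).subset fun x hx => ?_
    obtain ⟨D, hD, hDx⟩ := hfibne x hx
    exact ⟨D, hD, hDx⟩
  refine ⟨hClfin, ?_⟩
  have hmaps : ∀ D ∈ hA.toFinset, cls hdeg S.v₀ D ∈ hClfin.toFinset := by
    intro D hD
    rw [Set.Finite.mem_toFinset] at hD ⊢
    show picAct hRR.deg_one (S.Φ ^ r) (cls hdeg S.v₀ D) = cls hdeg S.v₀ D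
    rw [picAct_cls hdeg _ (S.Φ_pow_smul_v₀ r), ((mem_invEff_iff hdeg _ _ _).mp hD).2.1]
  have hcount := Finset.card_eq_sum_card_fiberwise hmaps
  have hfibcard : ∀ x ∈ hClfin.toFinset,
      (hA.toFinset.filter fun D => cls hdeg S.v₀ D = x).card * (q ^ r - 1) + 1 = P := by
    intro x hx
    rw [Set.Finite.mem_toFinset] at hx
    obtain ⟨hfin, hc⟩ := hfib x hx
    rw [← hc]
    congr 2
    rw [Set.ncard_eq_toFinset_card _ hfin]
    congr 1
    ext D
    simp [Set.Finite.mem_toFinset]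
  have hsum : ∑ x ∈ hClfin.toFinset,
      ((hA.toFinset.filter fun D => cls hdeg S.v₀ D = x).card * (q ^ r - 1) + 1) =
      hClfin.toFinset.card * P := Finset.sum_const_nat hfibcard
  rw [Finset.sum_add_distrib, ← Finset.sum_mul, ← hcount, Finset.sum_const, smul_eq_mul,
    mul_one] at hsum
  rw [Set.ncard_eq_toFinset_card A hA, Set.ncard_eq_toFinset_card Cl hClfin]
  have e : hA.toFinset.card * q ^ r =
      hA.toFinset.card * (q ^ r - 1) + hA.toFinset.card := by
    conv_lhs => rw [← Nat.sub_add_cancel hQ.le]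
    rw [mul_add, mul_one]
  rw [e, ← hsum]
  ring


omit [IsAlgClosed k] hq [CharP k q] in
theorem toPerm_pow_apply {G X : Type*} [Group G] [MulAction G X] (g : G) (s : ℕ) (x : X) :
    ((MulAction.toPerm g : Equiv.Perm X) ^ s) x = (g ^ s) • x := by
  induction s generalizing x with
  | zero => simp
  | succ s ih => rw [pow_succ, Equiv.Perm.mul_apply, ih, MulAction.toPerm_apply, pow_succ, mul_smul]

/-- **TMB, abstract form**, from the three open rows. -/
theorem tmbAbstract_of (hdesc : FrobDescentStatement) (heuler : EulerRecurrenceStatement)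
    (hns : NonSpecialStatement) : TMBAbstractStatement := by
  intro k F _ _ _ _ q _ _ halg S hRR p _
  haveI := hRR.principal
  have hdeg := hRR.deg_one
  have hfixset : ∀ r s : ℕ, {x : Place k F |
      ((MulAction.toPerm (S.Φ ^ r) : Equiv.Perm (Place k F)) ^ s) x = x} =
      {v : Place k F | (S.Φ ^ (r * s)) • v = v} := by
    intro r s
    ext v
    rw [Set.mem_ofPred_eq, Set.mem_ofPred_eq, toPerm_pow_apply, ← pow_mul]
  have hE : ∀ r : ℕ, 0 < r →
      (∀ n : ℕ, (invEff (MulAction.toPerm (S.Φ ^ r) : Equiv.Perm (Place k F)) n).Finite) ∧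
      ∀ n : ℕ, (n + 1) * (invEff (MulAction.toPerm (S.Φ ^ r) : Equiv.Perm (Place k F))
        (n + 1)).ncard =
        ∑ ij ∈ Finset.HasAntidiagonal.antidiagonal n,
          (invEff (MulAction.toPerm (S.Φ ^ r) : Equiv.Perm (Place k F)) ij.1).ncard *
            {v : Place k F | (S.Φ ^ (r * (ij.2 + 1))) • v = v}.ncard := by
    intro r hr
    have := heuler (Place k F) (MulAction.toPerm (S.Φ ^ r)) (fun s hs => by
      rw [hfixset]
      exact S.finite_fixed_places hdeg (Nat.mul_pos hr hs))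
    refine ⟨this.1, fun n => ?_⟩
    rw [this.2 n]
    apply Finset.sum_congr rfl
    intro ij _
    rw [hfixset]
  have hcc : ∀ r : ℕ, 0 < r → ∀ n : ℕ, 2 * genusFF k F ≤ n + 1 → _ :=
    fun r hr n hn => class_count hdesc hns hRR S halg hr n hn ((hE r hr).1 n)
  obtain ⟨C', hC'⟩ := card_torsion_le_of_zeta p (picAct hdeg S.Φ) q (genusFF k F)
    (Fact.out : q.Prime).two_le
    (fun r => {x : Pic0 k F | picAct hdeg (S.Φ ^ r) x = x}.ncard)
    (fun s => {v : Place k F | (S.Φ ^ s) • v = v}.ncard)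
    (fun r n => (invEff (MulAction.toPerm (S.Φ ^ r) : Equiv.Perm (Place k F)) n).ncard)
    (fun r _ => by
      show (invEff (MulAction.toPerm (S.Φ ^ r) : Equiv.Perm (Place k F)) 0).ncard = 1
      rw [invEff_zero, Set.ncard_singleton])
    (fun r hr n => (hE r hr).2 n)
    (fun r hr n hn => (hcc r hr n hn).2)
    (fun x _ => S.exists_pow_picAct_eq hdeg halg x)
    (fun r hr => by
      rw [← picAct_pow]
      exact ⟨(hcc r hr (2 * genusFF k F) (by omega)).1, rfl⟩)
  refine ⟨p ^ C', fun n => ?_⟩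
  have key := finite_ncard_le_of_forall_finset
    ((Pic0.torsion k F (p ^ n) : AddSubgroup (Pic0 k F)) : Set (Pic0 k F))
    (p ^ (C' + 2 * genusFF k F * n)) (fun T hT => hC' n T (fun x hx => by
      have := hT hx
      rw [SetLike.mem_coe, Pic0.mem_torsion, natCast_zsmul] at this
      exact this))
  refine ⟨key.1, ?_⟩
  rw [← pow_add]
  have h2 := key.2
  rw [← Nat.card_coe_set_eq] at h2
  exact h2

end Assembly

end Fermat.Agent.H55.Zeta

end
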