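import Mathlib

set_option autoImplicit false

namespace Fermat.Agent.H55.Zeta

open PowerSeries

section Dlog

variable {K : Type*} [Field K]

/-- `∑ α^(s+1) T^s`. -/
noncomputable def geo (α : K) : K⟦X⟧ := PowerSeries.mk fun s => α ^ (s + 1)

/-- `1 - α T`. -/
noncomputable def lin (α : K) : K⟦X⟧ := 1 - C α * X

/-- `ℓ` is a logarithmic derivative of `F`. -/
def HasDlog (F ℓ : K⟦X⟧) : Prop := d⁄dX K F = F * ℓ

@[simp] theorem coeff_geo (α : K) (s : ℕ) : coeff s (geo α) = α ^ (s + 1) := by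
  simp [geo]

theorem constantCoeff_lin (α : K) : constantCoeff (lin α) = 1 := by
  simp [lin]

theorem coeff_zero_lin_mul (α : K) (F : K⟦X⟧) : coeff 0 (lin α * F) = coeff 0 F := by
  rw [lin, sub_mul, one_mul, map_sub, mul_assoc, coeff_C_mul, coeff_zero_X_mul, mul_zero,
    sub_zero]

theorem coeff_succ_lin_mul (α : K) (F : K⟦X⟧) (n : ℕ) :
    coeff (n + 1) (lin α * F) = coeff (n + 1) F - α * coeff n F := by
  rw [lin, sub_mul, one_mul, map_sub, mul_assoc, coeff_C_mul, coeff_succ_X_mul]

theorem lin_mul_geo (α : K) : lin α * geo α = C α := by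
  ext n
  rcases n with _ | n
  · rw [coeff_zero_lin_mul]; simp
  · rw [coeff_succ_lin_mul, coeff_geo, coeff_geo, coeff_C]
    simp [pow_succ']

theorem hasDlog_lin (α : K) : HasDlog (lin α) (-geo α) := by
  unfold HasDlog
  rw [mul_neg, lin_mul_geo, lin, map_sub, Derivation.leibniz]
  simp

theorem hasDlog_one : HasDlog (1 : K⟦X⟧) 0 := by
  unfold HasDlog
  rw [mul_zero]
  exact derivative_one

theorem HasDlog.mul {F G ℓ m : K⟦X⟧} (hF : HasDlog F ℓ) (hG : HasDlog G m) :
    HasDlog (F * G) (ℓ + m) := by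
  unfold HasDlog at *
  rw [Derivation.leibniz, hF, hG, smul_eq_mul, smul_eq_mul]
  ring

theorem hasDlog_multiset_prod (A : Multiset K) (f : K → K) :
    HasDlog (A.map fun α => lin (f α)).prod (A.map fun α => -geo (f α)).sum := by
  induction A using Multiset.induction_on with
  | empty => simpa using hasDlog_one
  | cons a A ih =>
    rw [Multiset.map_cons, Multiset.prod_cons, Multiset.map_cons, Multiset.sum_cons]
    exact (hasDlog_lin (f a)).mul ih

theorem HasDlog.dlog_unique {F ℓ m : K⟦X⟧} (h1 : HasDlog F ℓ) (h2 : HasDlog F m) (hF : F ≠ 0) :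
    ℓ = m := by
  unfold HasDlog at *
  exact mul_left_cancel₀ hF (h1.symm.trans h2)

theorem HasDlog.unique [CharZero K] {F G ℓ : K⟦X⟧} (hF : HasDlog F ℓ) (hG : HasDlog G ℓ)
    (hF1 : constantCoeff F = 1) (hG1 : constantCoeff G = 1) : F = G := by
  unfold HasDlog at *
  have hG0 : constantCoeff G ≠ 0 := by rw [hG1]; exact one_ne_zero
  have h1 : d⁄dX K (F * G⁻¹) = 0 := by
    rw [Derivation.leibniz, derivative_inv', hF, hG, smul_eq_mul, smul_eq_mul]
    have : G * G⁻¹ = 1 := PowerSeries.mul_inv_cancel G hG0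
    calc F * (-G⁻¹ ^ 2 * (G * ℓ)) + G⁻¹ * (F * ℓ)
        = F * ℓ * G⁻¹ * (1 - G * G⁻¹) := by ring
      _ = 0 := by rw [this, sub_self, mul_zero]
  have h2 : F * G⁻¹ = 1 := by
    apply derivative.ext (R := K)
    · rw [h1, derivative_one]
    · rw [map_mul, hF1, one_mul, map_one, PowerSeries.constantCoeff_inv, hG1, inv_one]
  calc F = F * G⁻¹ * G := by
        rw [mul_assoc, PowerSeries.inv_mul_cancel G hG0, mul_one]
    _ = G := by rw [h2, one_mul]

/-- A power series given by a recurrence has the corresponding logarithmic derivative. -/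
theorem hasDlog_mk_of_rec (a l : ℕ → K)
    (h : ∀ n : ℕ, ((n : K) + 1) * a (n + 1) =
      ∑ ij ∈ Finset.HasAntidiagonal.antidiagonal n, a ij.1 * l ij.2) :
    HasDlog (PowerSeries.mk a) (PowerSeries.mk l) := by
  unfold HasDlog
  ext n
  rw [coeff_derivative, coeff_mk, coeff_mul, mul_comm, h n]
  simp

end Dlog

section Rationality

variable {K : Type*} [Field K]

/-- **(Z3a)** rationality of the zeta function from the Riemann-Roch count. -/
theorem exists_poly_of_rr (Q : K) (hQ : Q ≠ 1) (g : ℕ) (hK : K) (a : ℕ → K) (ha0 : a 0 = 1)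
    (hRR : ∀ n : ℕ, 2 * g ≤ n + 1 → a n * (Q - 1) = hK * (Q ^ (n + 1 - g) - 1)) :
    ∃ Pp : Polynomial K, (Pp : K⟦X⟧) = lin 1 * lin Q * PowerSeries.mk a ∧
      Pp.eval 1 = hK ∧ Pp.natDegree ≤ 2 * g := by
  have hQ1 : Q - 1 ≠ 0 := sub_ne_zero.mpr hQ
  set B : K⟦X⟧ := lin Q * PowerSeries.mk a with hB
  set P : K⟦X⟧ := lin 1 * B with hP
  -- coefficients of `B` are eventually `hK`
  have hb : ∀ n : ℕ, 2 * g ≤ n → coeff n B = hK := by
    intro n hn
    rcases n with _ | n
    · have hg : g = 0 := by omega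
      rw [hB, coeff_zero_lin_mul, coeff_mk, ha0]
      have := hRR 0 (by omega)
      rw [ha0, hg] at this
      simp only [zero_add, Nat.sub_zero, pow_one, one_mul] at this
      exact mul_right_cancel₀ hQ1 (by rw [one_mul]; exact this)
    · rw [hB, coeff_succ_lin_mul, coeff_mk, coeff_mk]
      have h1 := hRR (n + 1) (by omega)
      have h2 := hRR n (by omega)
      apply mul_right_cancel₀ hQ1
      rw [sub_mul, h1, mul_assoc, h2]
      have e : n + 1 + 1 - g = (n + 1 - g) + 1 := by omega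
      rw [e, pow_succ]
      ring
  have hp : ∀ n : ℕ, 2 * g < n → coeff n P = 0 := by
    intro n hn
    rcases n with _ | n
    · omega
    · rw [hP, coeff_succ_lin_mul, hb (n + 1) (by omega), hb n (by omega), one_mul, sub_self]
  have hsum : ∀ m : ℕ, ∑ n ∈ Finset.range (m + 1), coeff n P = coeff m B := by
    intro m
    induction m with
    | zero => simp [hP, coeff_zero_lin_mul]
    | succ m ih =>
      rw [Finset.sum_range_succ, ih, hP, coeff_succ_lin_mul]
      ring
  refine ⟨PowerSeries.trunc (2 * g + 1) P, ?_, ?_, ?_⟩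
  · rw [← mul_assoc] at hP
    rw [← hP]
    ext n
    rw [Polynomial.coeff_coe, coeff_trunc]
    split_ifs with h
    · rfl
    · exact (hp n (by omega)).symm
  · rw [Polynomial.eval_eq_sum_range' (n := 2 * g + 1)]
    · simp only [one_pow, mul_one, coeff_trunc]
      rw [← hb (2 * g) le_rfl, ← hsum]
      apply Finset.sum_congr rfl
      intro n hn
      rw [if_pos (Finset.mem_range.mp hn)]
    · exact natDegree_trunc_lt P (2 * g)
  · exact Nat.lt_succ_iff.mp (natDegree_trunc_lt P (2 * g))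

end Rationality


section Assembly

variable {K : Type*} [Field K]

open Polynomial in
theorem coe_one_sub_C_mul_X (α : K) :
    (((1 : K[X]) - Polynomial.C α * Polynomial.X : K[X]) : K⟦X⟧) = lin α := by
  rw [lin, Polynomial.coe_sub, Polynomial.coe_one, Polynomial.coe_mul, Polynomial.coe_C,
    Polynomial.coe_X]

open Polynomial in
theorem coe_multiset_prod_one_sub (A : Multiset K) (f : K → K) :
    (((A.map fun α => (1 : K[X]) - Polynomial.C (f α) * Polynomial.X).prod : K[X]) : K⟦X⟧) =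
      (A.map fun α => lin (f α)).prod := by
  induction A using Multiset.induction_on with
  | empty => simp
  | cons a A ih =>
    rw [Multiset.map_cons, Multiset.prod_cons, Multiset.map_cons, Multiset.prod_cons,
      Polynomial.coe_mul, ih, coe_one_sub_C_mul_X]

open Polynomial in
theorem prod_X_sub_C_eq (R : Multiset K) (hR : ∀ β ∈ R, β ≠ 0) :
    (R.map fun β => (Polynomial.X - Polynomial.C β : K[X])).prod =
      Polynomial.C (R.map fun β => -β).prod *
        (R.map fun β => (1 : K[X]) - Polynomial.C β⁻¹ * Polynomial.X).prod := by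
  induction R using Multiset.induction_on with
  | empty => simp
  | cons b R ih =>
    have hb : b ≠ 0 := hR b (Multiset.mem_cons_self b R)
    rw [Multiset.map_cons, Multiset.prod_cons, Multiset.map_cons, Multiset.prod_cons,
      Multiset.map_cons, Multiset.prod_cons, ih (fun β hβ => hR β (Multiset.mem_cons_of_mem hβ)),
      Polynomial.C_mul]
    have : (Polynomial.X - Polynomial.C b : K[X]) =
        Polynomial.C (-b) * (1 - Polynomial.C b⁻¹ * Polynomial.X) := by
      rw [mul_sub, mul_one, ← mul_assoc, ← Polynomial.C_mul, neg_mul, mul_inv_cancel₀ hb]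
      simp only [Polynomial.C_neg, Polynomial.C_1, neg_mul, one_mul, sub_neg_eq_add]
      ring
    rw [this]
    ring

theorem constantCoeff_multiset_prod_lin (A : Multiset K) (f : K → K) :
    constantCoeff (A.map fun α => lin (f α)).prod = 1 := by
  induction A using Multiset.induction_on with
  | empty => simp
  | cons a A ih =>
    rw [Multiset.map_cons, Multiset.prod_cons, map_mul, ih, constantCoeff_lin, one_mul]

theorem coeff_multiset_sum_neg_geo (A : Multiset K) (f : K → K) (s : ℕ) :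
    coeff s (A.map fun α => -geo (f α)).sum = -(A.map fun α => f α ^ (s + 1)).sum := by
  induction A using Multiset.induction_on with
  | empty => simp
  | cons a A ih =>
    rw [Multiset.map_cons, Multiset.sum_cons, map_add, ih, Multiset.map_cons, Multiset.sum_cons,
      map_neg, coeff_geo]
    ring

/-- **(Z3a) + (Z4)**: the class numbers `h r` are `∏ (1 - α ^ r)` over the inverse roots `α`
of the numerator of the zeta function. -/
theorem exists_roots_of_zeta [CharZero K] [IsAlgClosed K] (q g : ℕ) (hq : 2 ≤ q)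
    (h N : ℕ → ℕ) (a : ℕ → ℕ → ℕ)
    (A0 : ∀ r : ℕ, 0 < r → a r 0 = 1)
    (A1 : ∀ r : ℕ, 0 < r → ∀ n : ℕ, (n + 1) * a r (n + 1) =
      ∑ ij ∈ Finset.HasAntidiagonal.antidiagonal n, a r ij.1 * N (r * (ij.2 + 1)))
    (A2 : ∀ r : ℕ, 0 < r → ∀ n : ℕ, 2 * g ≤ n + 1 →
      a r n * q ^ r + h r = h r * (q ^ r) ^ (n + 1 - g) + a r n) :
    ∃ (Pp : Polynomial K) (A : Multiset K), Pp.coeff 0 = 1 ∧
      (∀ n : ℕ, ∃ z : ℤ, Pp.coeff n = (z : K)) ∧ A.card ≤ 2 * g ∧
      (∀ α ∈ A, α ≠ 0 ∧ Pp.eval α⁻¹ = 0) ∧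
      ∀ r : ℕ, 0 < r → (h r : K) = (A.map fun α => 1 - α ^ r).prod := by
  -- notation
  set Z : ℕ → K⟦X⟧ := fun r => PowerSeries.mk fun n => (a r n : K) with hZ
  set ℓ : ℕ → K⟦X⟧ := fun r => PowerSeries.mk fun s => (N (r * (s + 1)) : K) with hℓ
  have hZℓ : ∀ r : ℕ, 0 < r → HasDlog (Z r) (ℓ r) := by
    intro r hr
    apply hasDlog_mk_of_rec
    intro n
    have := congrArg (Nat.cast : ℕ → K) (A1 r hr n)
    push_cast at this
    exact this
  have hQ : ∀ r : ℕ, 0 < r → ((q : K) ^ r) ≠ 1 := by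
    intro r hr hcon
    have h1 : ((q ^ r : ℕ) : K) = ((1 : ℕ) : K) := by push_cast; exact hcon
    have h2 : q ^ r = 1 := Nat.cast_injective h1
    have h3 : 1 < q ^ r := Nat.one_lt_pow hr.ne' (by omega)
    omega
  have hpoly : ∀ r : ℕ, 0 < r → ∃ Pp : Polynomial K,
      (Pp : K⟦X⟧) = lin 1 * lin ((q : K) ^ r) * Z r ∧ Pp.eval 1 = (h r : K) ∧
        Pp.natDegree ≤ 2 * g := by
    intro r hr
    apply exists_poly_of_rr _ (hQ r hr) g _ _ (by simp [A0 r hr])
    intro n hn
    have := congrArg (Nat.cast : ℕ → K) (A2 r hr n hn)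
    push_cast at this
    linear_combination this
  have hP : ∀ r : ℕ, 0 < r →
      HasDlog (lin 1 * lin ((q : K) ^ r) * Z r) (-geo 1 + -geo ((q : K) ^ r) + ℓ r) :=
    fun r hr => ((hasDlog_lin 1).mul (hasDlog_lin _)).mul (hZℓ r hr)
  have hP1 : ∀ r : ℕ, 0 < r → constantCoeff (lin 1 * lin ((q : K) ^ r) * Z r) = 1 := by
    intro r hr
    rw [map_mul, map_mul, constantCoeff_lin, constantCoeff_lin, one_mul, one_mul]
    simp [hZ, A0 r hr]
  -- the case `r = 1`
  obtain ⟨Pp, hPp, -, hdeg⟩ := hpoly 1 Nat.one_pos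
  have hPp0 : Pp.coeff 0 = 1 := by
    have := hP1 1 Nat.one_pos
    rw [← hPp] at this
    rw [← Polynomial.coeff_coe, coeff_zero_eq_constantCoeff_apply]
    exact this
  have hPpne : Pp ≠ 0 := by
    rintro rfl
    simp at hPp0
  have hint : ∀ n : ℕ, ∃ z : ℤ, Pp.coeff n = (z : K) := by
    intro n
    rw [← Polynomial.coeff_coe, hPp, mul_assoc]
    have hZint : ∀ m : ℕ, ∃ z : ℤ, coeff m (Z 1) = (z : K) := fun m => ⟨(a 1 m : ℤ), by simp [hZ]⟩
    have hstep : ∀ (F : K⟦X⟧) (c : ℤ), (∀ m : ℕ, ∃ z : ℤ, coeff m F = (z : K)) →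
        ∀ m : ℕ, ∃ z : ℤ, coeff m (lin (c : K) * F) = (z : K) := by
      intro F c hF m
      rcases m with _ | m
      · rw [coeff_zero_lin_mul]; exact hF 0
      · obtain ⟨z1, hz1⟩ := hF (m + 1)
        obtain ⟨z2, hz2⟩ := hF m
        exact ⟨z1 - c * z2, by rw [coeff_succ_lin_mul, hz1, hz2]; push_cast; ring⟩
    have e1 : lin (1 : K) = lin ((1 : ℤ) : K) := by simp
    have e2 : lin ((q : K) ^ 1) = lin ((q : ℤ) : K) := by simp
    rw [e1, e2]
    exact hstep _ _ (hstep _ _ hZint) n
  set R := Pp.roots with hR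
  have hRne : ∀ β ∈ R, β ≠ 0 := by
    rintro β hβ rfl
    have := (Polynomial.mem_roots hPpne).mp hβ
    rw [Polynomial.IsRoot, ← Polynomial.coeff_zero_eq_eval_zero, hPp0] at this
    exact one_ne_zero this
  set A : Multiset K := R.map fun β => β⁻¹ with hA
  have hfac : Pp = (A.map fun α => (1 : Polynomial K) - Polynomial.C α * Polynomial.X).prod := by
    have h1 := (IsAlgClosed.splits Pp).eq_prod_roots
    rw [prod_X_sub_C_eq R hRne, ← mul_assoc, ← Polynomial.C_mul] at h1
    have h2 : (A.map fun α => (1 : Polynomial K) - Polynomial.C α * Polynomial.X) =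
        R.map fun β => (1 : Polynomial K) - Polynomial.C β⁻¹ * Polynomial.X := by
      rw [hA, Multiset.map_map]
      rfl
    rw [h2]
    have h3 := congrArg (Polynomial.eval 0) h1
    rw [← Polynomial.coeff_zero_eq_eval_zero, hPp0, Polynomial.eval_mul, Polynomial.eval_C,
      Polynomial.eval_multiset_prod, Multiset.map_map] at h3
    have h4 : (R.map (Polynomial.eval 0 ∘ fun β => (1 : Polynomial K) -
        Polynomial.C β⁻¹ * Polynomial.X)) = R.map fun _ => (1 : K) := by
      apply Multiset.map_congr rfl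
      intro β _
      simp
    rw [h4, Multiset.map_const', Multiset.prod_replicate, one_pow, mul_one] at h3
    rw [← h3, Polynomial.C_1, one_mul] at h1
    exact h1
  have hcard : A.card ≤ 2 * g := by
    rw [hA, Multiset.card_map]
    exact (Polynomial.card_roots' Pp).trans hdeg
  have hroot : ∀ α ∈ A, α ≠ 0 ∧ Pp.eval α⁻¹ = 0 := by
    intro α hα
    obtain ⟨β, hβ, rfl⟩ := Multiset.mem_map.mp hα
    refine ⟨inv_ne_zero (hRne β hβ), ?_⟩
    rw [inv_inv]
    exact (Polynomial.mem_roots hPpne).mp hβ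
  -- the key identity for the numbers `N s`
  have hcoe1 : (Pp : K⟦X⟧) = (A.map fun α => lin α).prod := by
    conv_lhs => rw [hfac]
    exact coe_multiset_prod_one_sub A fun α => α
  have hD1 : HasDlog (Pp : K⟦X⟧) (A.map fun α => -geo α).sum := by
    rw [hcoe1]
    exact hasDlog_multiset_prod A fun α => α
  have hne1 : (Pp : K⟦X⟧) ≠ 0 := by
    intro h0
    apply hPpne
    apply Polynomial.coe_injective (R := K)
    rw [h0, Polynomial.coe_zero]
  have hkey0 := (hPp ▸ hP 1 Nat.one_pos : HasDlog (Pp : K⟦X⟧) _).dlog_unique hD1 hne1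
  have hkey : ∀ s : ℕ, (N (s + 1) : K) = 1 + (q : K) ^ (s + 1) - (A.map fun α => α ^ (s + 1)).sum := by
    intro s
    have := congrArg (coeff s) hkey0
    rw [coeff_multiset_sum_neg_geo, map_add, map_add, map_neg, map_neg, coeff_geo, coeff_geo] at this
    simp only [hℓ, coeff_mk, one_pow, one_mul, pow_one] at this
    linear_combination this
  refine ⟨Pp, A, hPp0, hint, hcard, hroot, fun r hr => ?_⟩
  obtain ⟨Pr, hPr, hPr1, -⟩ := hpoly r hr
  have hDr : -geo 1 + -geo ((q : K) ^ r) + ℓ r = (A.map fun α => -geo (α ^ r)).sum := by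
    ext s
    rw [coeff_multiset_sum_neg_geo, map_add, map_add, map_neg, map_neg, coeff_geo, coeff_geo]
    simp only [hℓ, coeff_mk, one_pow]
    obtain ⟨t, ht⟩ : ∃ t, r * (s + 1) = t + 1 :=
      ⟨r * (s + 1) - 1, (Nat.sub_add_cancel (Nat.mul_pos hr (Nat.succ_pos s))).symm⟩
    rw [ht, hkey t, ← ht]
    have e : (A.map fun α => α ^ (r * (s + 1))) = A.map fun α => (α ^ r) ^ (s + 1) := by
      apply Multiset.map_congr rfl
      intro α _
      rw [pow_mul]
    rw [e, ← pow_mul]
    ring
  have hEq : lin 1 * lin ((q : K) ^ r) * Z r = (A.map fun α => lin (α ^ r)).prod := by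
    apply HasDlog.unique (hDr ▸ hP r hr) (hasDlog_multiset_prod A fun α => α ^ r) (hP1 r hr)
    exact constantCoeff_multiset_prod_lin A _
  have hPr2 : Pr = (A.map fun α => (1 : Polynomial K) - Polynomial.C (α ^ r) * Polynomial.X).prod := by
    apply Polynomial.coe_injective (R := K)
    rw [hPr, hEq, coe_multiset_prod_one_sub]
  rw [← hPr1, hPr2, Polynomial.eval_multiset_prod, Multiset.map_map]
  congr 1
  apply Multiset.map_congr rfl
  intro α _
  simp

end Assembly

end Fermat.Agent.H55.Zeta
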