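import Fermat.Agent.H55.Zeta.PadicGrowth
import Fermat.Agent.H55.Zeta.ZetaFormal

/-!
# P-SS / TMB: the formal Weil-zeta bound (Mathlib only)

`zeta_padicValNat_bound`: let `a r n` (number of `φ^r`-invariant effective divisors of degree
`n`), `N s` (number of `φ^s`-fixed places) and `h r` (number of `φ^r`-fixed divisor classes of
degree `0`) be sequences of natural numbers satisfying

* `(A0)` `a r 0 = 1`;
* `(A1)` the Euler-product recurrence `(n+1) a_r(n+1) = ∑_{i+j=n} a_r(i) N(r (j+1))`;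
* `(A2)` the Riemann-Roch count `a_r(n) (Q - 1) = h_r (Q^(n+1-g) - 1)` for `n ≥ 2g - 1`,
  `Q = q^r`;
* `h r ≠ 0`.

Then `v_p (h r) ≤ C + 2 g v_p(r)` for all `r ≥ 1`.
-/

set_option autoImplicit false

namespace Fermat.Agent.H55.Zeta

/-- An inverse root of a polynomial with `p`-adically integral coefficients and constant
coefficient `1` is `p`-adically integral. -/
theorem norm_le_one_of_inv_root {K : Type*} [NormedField K] [IsUltrametricDist K]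
    (Pp : Polynomial K) (h0 : Pp.coeff 0 = 1) (hint : ∀ n : ℕ, ‖Pp.coeff n‖ ≤ 1) (α : K)
    (_hα : α ≠ 0) (hroot : Pp.eval α⁻¹ = 0) : ‖α‖ ≤ 1 := by
  by_contra hcon
  have hα1 : 1 < ‖α‖ := not_le.mp hcon
  have hβ : ‖α⁻¹‖ < 1 := by
    rw [norm_inv]
    exact inv_lt_one_of_one_lt₀ hα1
  have h1 : Pp.eval α⁻¹ = 1 + ∑ n ∈ Finset.range Pp.natDegree, Pp.coeff (n + 1) * α⁻¹ ^ (n + 1) := by
    rw [Polynomial.eval_eq_sum_range, Finset.sum_range_succ', h0]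
    simp [add_comm]
  have h2 : ‖∑ n ∈ Finset.range Pp.natDegree, Pp.coeff (n + 1) * α⁻¹ ^ (n + 1)‖ ≤ ‖α⁻¹‖ := by
    apply IsUltrametricDist.norm_sum_le_of_forall_le_of_nonneg (norm_nonneg _)
    intro n _
    rw [norm_mul, norm_pow, pow_succ]
    calc ‖Pp.coeff (n + 1)‖ * (‖α⁻¹‖ ^ n * ‖α⁻¹‖) ≤ 1 * (1 * ‖α⁻¹‖) := by
          apply mul_le_mul (hint _) _ (mul_nonneg (pow_nonneg (norm_nonneg _) _) (norm_nonneg _))
            zero_le_one
          exact mul_le_mul_of_nonneg_right (pow_le_one₀ (norm_nonneg _) hβ.le) (norm_nonneg _)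
      _ = ‖α⁻¹‖ := by rw [one_mul, one_mul]
  have h3 : ‖Pp.eval α⁻¹‖ = ‖(1 : K)‖ := by
    apply norm_eq_of_norm_sub_lt
    rw [h1, add_sub_cancel_left, norm_one]
    exact h2.trans_lt hβ
  rw [hroot, norm_zero, norm_one] at h3
  exact zero_ne_one h3

/-- **Formal Weil-zeta bound** (Z3a + Z4 + Z5). -/
theorem zeta_padicValNat_bound (p : ℕ) [Fact p.Prime] (q g : ℕ) (hq : 2 ≤ q)
    (h N : ℕ → ℕ) (a : ℕ → ℕ → ℕ)
    (A0 : ∀ r : ℕ, 0 < r → a r 0 = 1)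
    (A1 : ∀ r : ℕ, 0 < r → ∀ n : ℕ, (n + 1) * a r (n + 1) =
      ∑ ij ∈ Finset.HasAntidiagonal.antidiagonal n, a r ij.1 * N (r * (ij.2 + 1)))
    (A2 : ∀ r : ℕ, 0 < r → ∀ n : ℕ, 2 * g ≤ n + 1 →
      a r n * q ^ r + h r = h r * (q ^ r) ^ (n + 1 - g) + a r n)
    (hpos : ∀ r : ℕ, 0 < r → h r ≠ 0) :
    ∃ C : ℕ, ∀ r : ℕ, 0 < r → padicValNat p (h r) ≤ C + 2 * g * padicValNat p r := by
  obtain ⟨Pp, A, hPp0, hint, hcard, hroot, hprod⟩ :=
    exists_roots_of_zeta (K := PadicAlgCl p) q g hq h N a A0 A1 A2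
  have hint' : ∀ n : ℕ, ‖Pp.coeff n‖ ≤ 1 := by
    intro n
    obtain ⟨z, hz⟩ := hint n
    rw [hz]
    exact IsUltrametricDist.norm_intCast_le_one (PadicAlgCl p) z
  have hα : ∀ α ∈ A, ‖α‖ ≤ 1 := fun α hα =>
    norm_le_one_of_inv_root Pp hPp0 hint' α (hroot α hα).1 (hroot α hα).2
  obtain ⟨C, hC⟩ := exists_padicValNat_le_of_eq_prod p A hα h hpos hprod
  refine ⟨C, fun r hr => (hC r hr).trans ?_⟩
  exact Nat.add_le_add_left (Nat.mul_le_mul_right _ hcard) C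

end Fermat.Agent.H55.Zeta
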